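import Fermat.Agent.JacRep.Asm.Group
import Mathlib.AlgebraicGeometry.Morphisms.Proper
import Mathlib.AlgebraicGeometry.Morphisms.UniversallyOpen
import Mathlib.AlgebraicGeometry.Geometrically.Connected

/-!
# The Abel-Jacobi map; properness and connectedness of the Jacobian

* `geometricallyConnected_curve`: the curve is geometrically connected, being the union of two
  connected charts through the base point.
* `exists_abelJacobi`: the point bundles glue to a morphism `C → picScheme`, and every geometric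
  point of the Jacobian is a sum of `g` points in its image.
* `exists_power`: the sum map from the `n`-fold power of the curve.
* `isProper_picBase`: the Jacobian is universally closed and geometrically connected as the image
  of the `g`-th power of the curve, hence proper, being separated and locally of finite type.
-/

set_option autoImplicit false
set_option linter.style.haveILetI false

noncomputable section

open CategoryTheory CategoryTheory.Limits AlgebraicGeometry AlgebraicGeometry.RelPicard
  NeronModelInfra Opposite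
open scoped TensorProduct

universe u

namespace FLTAgent.JacRep

variable {k : Type u} [Field k] [IsAlgClosed k] {Cv : Cover k} {C : Scheme.{u}}
  {c : C ⟶ Spec (CommRingCat.of k)}
  {ε : SchemeHomOver (𝟙 (Spec (CommRingCat.of k))) c}

section Connected

omit [IsAlgClosed k] in
theorem isDomain_tensor_field (K A : Type u) [Field K] [Algebra k K] [CommRing A] [Algebra k A]
    (h : ∀ (L : Type u) [Field L] [IsAlgClosed L] [Algebra k L], IsDomain (L ⊗[k] A)) :
    IsDomain (K ⊗[k] A) := by
  haveI := h (AlgebraicClosure K)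
  exact Function.Injective.isDomain
    (Algebra.TensorProduct.map (IsScalarTower.toAlgHom k K (AlgebraicClosure K))
      (AlgHom.id k A)).toRingHom
    (Module.Flat.rTensor_preserves_injective_linearMap
      (IsScalarTower.toAlgHom k K (AlgebraicClosure K)).toLinearMap
      (algebraMap K (AlgebraicClosure K)).injective)

omit [IsAlgClosed k] in
/-- The curve is geometrically connected. -/
theorem geometricallyConnected_curve (W : Realization Cv c ε) : GeometricallyConnected c := by
  refine ⟨geometrically_iff_of_isClosedUnderIsomorphisms.mpr fun K _ s => ?_⟩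
  obtain ⟨hA, hg⟩ := exists_algebra_specStr (R := (K : Type u)) s
  subst hg
  let σ : Spec (CommRingCat.of K) ⟶ pullback c (specStr k K) :=
    pullback.lift (specStr k K ≫ ε.1) (𝟙 _) (by rw [Category.assoc, ε.2]; simp)
  have piece : ∀ (A : Type u) [CommRing A] [Algebra k A] (j : Spec (CommRingCat.of A) ⟶ C)
      (hj : j ≫ c = specStr k A) (b : Spec (CommRingCat.of k) ⟶ Spec (CommRingCat.of A))
      (hb : b ≫ j = ε.1), IsDomain (K ⊗[k] A) →
      _root_.IsConnected (Set.range (pullback.map (specStr k A) (specStr k K) c (specStr k K) j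
        (𝟙 _) (𝟙 _) (by simp [hj]) (by simp)).base) ∧
      σ.base (IsLocalRing.closedPoint K) ∈ Set.range (pullback.map (specStr k A) (specStr k K) c
        (specStr k K) j (𝟙 _) (𝟙 _) (by simp [hj]) (by simp)).base := by
    intro A _ _ j hj b hb hdom
    let m := pullback.map (specStr k A) (specStr k K) c (specStr k K) j (𝟙 _) (𝟙 _)
      (by simp [hj]) (by simp)
    haveI : IsDomain (A ⊗[k] K) :=
      MulEquiv.isDomain _ (Algebra.TensorProduct.comm k A K).toMulEquiv
    haveI : ConnectedSpace (pullback (specStr k A) (specStr k K) : Scheme.{u}) := by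
      rw [(pullbackSpecIso k A K).hom.homeomorph.connectedSpace_iff]
      haveI : IrreducibleSpace (PrimeSpectrum (A ⊗[k] K)) := PrimeSpectrum.irreducibleSpace
      exact @IrreducibleSpace.connectedSpace (PrimeSpectrum (A ⊗[k] K)) _ this
    refine ⟨isConnected_range m.continuous, ?_⟩
    let τ : Spec (CommRingCat.of K) ⟶ pullback (specStr k A) (specStr k K) :=
      pullback.lift (specStr k K ≫ b) (𝟙 _) (by
        rw [Category.assoc, ← hj, ← Category.assoc b, hb, ε.2]; simp)
    have hτ : τ ≫ m = σ := by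
      apply pullback.hom_ext
      · simp only [τ, m, σ, pullback.map, Category.assoc, pullback.lift_fst, pullback.lift_fst_assoc, hb]
      · simp only [τ, m, σ, pullback.map, Category.assoc, pullback.lift_snd,
          Category.comp_id]
    exact ⟨τ.base (IsLocalRing.closedPoint K), (Scheme.Hom.comp_apply _ _ _).symm.trans
      (congrArg (fun h : Spec (CommRingCat.of K) ⟶ pullback c (specStr k K) =>
        h.base (IsLocalRing.closedPoint K)) hτ)⟩
  have hunit : IsUnit (Cv.base Cv.x) := isUnit_iff_ne_zero.2 Cv.base_x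
  letI := Cv.res₀.toRingHom.toAlgebra
  haveI : IsLocalization.Away Cv.x Cv.A := Cv.away₀
  let bA : Cv.A →+* k := IsLocalization.Away.lift Cv.x (g := Cv.base.toRingHom) hunit
  have hbA : bA.comp Cv.res₀.toRingHom = Cv.base.toRingHom :=
    IsLocalization.Away.lift_comp Cv.x hunit
  have hb₁ : Spec.map (CommRingCat.ofHom (bA.comp Cv.res₁.toRingHom)) ≫ W.j₁ = ε.1 := by
    rw [CommRingCat.ofHom_comp, Spec.map_comp, Category.assoc, ← W.isPullback.w, ← Category.assoc,
      ← Spec.map_comp, ← CommRingCat.ofHom_comp, hbA, W.base_eq]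
  haveI hdom₀ : IsDomain (K ⊗[k] Cv.A₀) := isDomain_tensor_field K Cv.A₀ fun L _ _ _ =>
    haveI := Cv.dedekind₀ L; inferInstance
  haveI hdom₁ : IsDomain (K ⊗[k] Cv.A₁) := isDomain_tensor_field K Cv.A₁ fun L _ _ _ =>
    haveI := Cv.dedekind₁ L; inferInstance
  obtain ⟨h₀, hx₀⟩ := piece Cv.A₀ W.j₀ W.over₀ _ W.base_eq hdom₀
  obtain ⟨h₁, hx₁⟩ := piece Cv.A₁ W.j₁ W.over₁ _ hb₁ hdom₁
  have hu := IsConnected.union ⟨_, hx₀, hx₁⟩ h₀ h₁
  rw [connectedSpace_iff_univ]
  convert hu using 1
  symm
  rw [Set.eq_univ_iff_forall]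
  intro z
  rw [Scheme.Pullback.range_map, Scheme.Pullback.range_map]
  have := W.range_union.ge (Set.mem_univ ((pullback.fst c (specStr k K)).base z))
  simpa using this

end Connected

variable [IsProper c] {W : Realization Cv c ε} (D : Dictionary W) (CF : ChartFamily Cv)

/-- The Abel-Jacobi map, with sums of `g` points reaching every geometric point. -/
theorem exists_abelJacobi :
    ∃ (g : ℕ) (a : SchemeHomOver c (picBase D CF)),
      ∀ (K : Type u) [Field K] [IsAlgClosed K] [Algebra k K]
        (p : SchemeHomOver (specStr k K) (picBase D CF)),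
        ∃ (Q : Fin g → SchemeHomOver (specStr k K) c) (S : Fin (g + 1) → Bundle Cv K),
          IsTrivial (S 0) ∧
          (∀ i : Fin g, Bundle.IsTensor (S i.castSucc) (ptBundle D CF (postComp a (Q i)))
            (S i.succ)) ∧ (ptBundle D CF p).Iso (S (Fin.last g)) := by
  obtain ⟨P₀, P₁, P, ⟨hr₀, hd₀⟩, ⟨hr₁, hd₁⟩, hp₀, hp₁, -, g, hg⟩ :=
    Bundle.exists_pointBundles Cv
  obtain ⟨a₀, ha₀⟩ := exists_ptBundle D CF P₀ hr₀ hd₀
  obtain ⟨a₁, ha₁⟩ := exists_ptBundle D CF P₁ hr₁ hd₁
  have heq : postComp a₀ (specOver Cv.res₀) = postComp a₁ (specOver Cv.res₁) := by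
    apply ptBundle_ext
    exact Bundle.iso_trans (Bundle.isPullback_unique ha₀ (ptBundle_pullback D CF Cv.res₀ a₀) hp₀)
      (Bundle.iso_symm (Bundle.isPullback_unique ha₁ (ptBundle_pullback D CF Cv.res₁ a₁) hp₁))
  haveI := W.isOpenImmersion₀
  haveI := W.isOpenImmersion₁
  let 𝒰 : C.OpenCover := Scheme.Cover.mkOfCovers (P := @IsOpenImmersion) (ULift.{u} Bool)
    (fun b => if b.down then Spec (CommRingCat.of Cv.A₁) else Spec (CommRingCat.of Cv.A₀))
    (fun b => match b with | ⟨true⟩ => W.j₁ | ⟨false⟩ => W.j₀)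
    (fun x => by
      rcases W.range_union.ge (Set.mem_univ x) with ⟨y, hy⟩ | ⟨y, hy⟩
      · exact ⟨⟨false⟩, y, hy⟩
      · exact ⟨⟨true⟩, y, hy⟩)
    (fun b => match b with | ⟨true⟩ => W.isOpenImmersion₁ | ⟨false⟩ => W.isOpenImmersion₀)
  let m : ∀ b, 𝒰.X b ⟶ picScheme D CF := fun b =>
    match b with | ⟨true⟩ => a₁.1 | ⟨false⟩ => a₀.1
  have hmix : pullback.fst W.j₀ W.j₁ ≫ a₀.1 = pullback.snd W.j₀ W.j₁ ≫ a₁.1 := by
    rw [← cancel_epi W.isPullback.isoPullback.hom, ← Category.assoc, ← Category.assoc,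
      IsPullback.isoPullback_hom_fst, IsPullback.isoPullback_hom_snd]
    exact congrArg Subtype.val heq
  have hglue : ∀ b b', pullback.fst (𝒰.f b) (𝒰.f b') ≫ m b = pullback.snd _ _ ≫ m b' := by
    rintro ⟨_ | _⟩ ⟨_ | _⟩
    · show pullback.fst W.j₀ W.j₀ ≫ a₀.1 = pullback.snd W.j₀ W.j₀ ≫ a₀.1
      rw [fst_eq_snd_of_mono_eq W.j₀]
    · exact hmix
    · show pullback.fst W.j₁ W.j₀ ≫ a₁.1 = pullback.snd W.j₁ W.j₀ ≫ a₀.1
      rw [← cancel_epi (pullbackSymmetry W.j₀ W.j₁).hom, pullbackSymmetry_hom_comp_fst_assoc,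
        pullbackSymmetry_hom_comp_snd_assoc]
      exact hmix.symm
    · show pullback.fst W.j₁ W.j₁ ≫ a₁.1 = pullback.snd W.j₁ W.j₁ ≫ a₁.1
      rw [fst_eq_snd_of_mono_eq W.j₁]
  let a := Scheme.Cover.glueMorphisms 𝒰 m hglue
  have hj₀ : W.j₀ ≫ a = a₀.1 := Scheme.Cover.ι_glueMorphisms 𝒰 m hglue ⟨false⟩
  have hj₁ : W.j₁ ≫ a = a₁.1 := Scheme.Cover.ι_glueMorphisms 𝒰 m hglue ⟨true⟩
  refine ⟨g, ⟨a, ?_⟩, ?_⟩
  · refine Scheme.Cover.hom_ext 𝒰 _ _ ?_
    rintro ⟨_ | _⟩
    · show W.j₀ ≫ a ≫ picBase D CF = W.j₀ ≫ c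
      rw [← Category.assoc, hj₀, W.over₀]; exact a₀.2
    · show W.j₁ ≫ a ≫ picBase D CF = W.j₁ ≫ c
      rw [← Category.assoc, hj₁, W.over₁]; exact a₁.2
  intro K _ _ _ p
  obtain ⟨Q, S, hQ, hS0, hS, hlast⟩ := hg K _ ((picPoint D CF).bundleAt_rigidified D K p)
    ((picPoint D CF).bundleAt_degreeZero D K p)
  have hex : ∀ i, ∃ q : SchemeHomOver (specStr k K) c, ∀ (h : a ≫ picBase D CF = c),
      (Q i).Iso (ptBundle D CF (postComp ⟨a, h⟩ q)) := by
    intro i
    rcases hQ i with ⟨φ, hφ⟩ | ⟨φ, hφ⟩
    · refine ⟨⟨(specOver φ).1 ≫ W.j₀, by rw [Category.assoc, W.over₀]; exact (specOver φ).2⟩,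
        fun h => ?_⟩
      have e : postComp (⟨a, h⟩ : SchemeHomOver c (picBase D CF))
          ⟨(specOver φ).1 ≫ W.j₀, by rw [Category.assoc, W.over₀]; exact (specOver φ).2⟩ =
          postComp a₀ (specOver φ) :=
        Subtype.ext (by simp [postComp, hj₀])
      rw [e]
      exact Bundle.isPullback_unique (Bundle.iso_symm ha₀) hφ (ptBundle_pullback D CF φ a₀)
    · refine ⟨⟨(specOver φ).1 ≫ W.j₁, by rw [Category.assoc, W.over₁]; exact (specOver φ).2⟩,
        fun h => ?_⟩
      have e : postComp (⟨a, h⟩ : SchemeHomOver c (picBase D CF))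
          ⟨(specOver φ).1 ≫ W.j₁, by rw [Category.assoc, W.over₁]; exact (specOver φ).2⟩ =
          postComp a₁ (specOver φ) :=
        Subtype.ext (by simp [postComp, hj₁])
      rw [e]
      exact Bundle.isPullback_unique (Bundle.iso_symm ha₁) hφ (ptBundle_pullback D CF φ a₁)
  choose q hq using hex
  exact ⟨q, S, hS0, fun i => isTensor_congr (hS i) (Bundle.iso_refl _) (hq i _)
    (Bundle.iso_refl _), hlast⟩

/-- The sum map on a power of the curve. -/
theorem exists_power [SmoothOfRelativeDimension 1 c] (W' : Realization Cv c ε)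
    (a : SchemeHomOver c (picBase D CF)) (n : ℕ) :
    ∃ (X : Scheme.{u}) (x : X ⟶ Spec (CommRingCat.of k)) (f : SchemeHomOver x (picBase D CF)),
      IsProper x ∧ GeometricallyConnected x ∧ UniversallyOpen x ∧
      ∀ (K : Type u) [Field K] [Algebra k K] (Q : Fin n → SchemeHomOver (specStr k K) c)
        (S : Fin (n + 1) → Bundle Cv K), IsTrivial (S 0) →
        (∀ i : Fin n, Bundle.IsTensor (S i.castSucc) (ptBundle D CF (postComp a (Q i)))
          (S i.succ)) →
        ∃ g : SchemeHomOver (specStr k K) x,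
          (ptBundle D CF (postComp f g)).Iso (S (Fin.last n)) := by
  induction n with
  | zero =>
    refine ⟨Spec (CommRingCat.of k), 𝟙 _, picZero D CF, inferInstance, ?_, inferInstance,
      fun K _ _ _ S h0 _ => ⟨⟨specStr k K, Category.comp_id _⟩, ?_⟩⟩
    · refine ⟨geometrically_iff_of_isClosedUnderIsomorphisms.mpr fun K _ s => ?_⟩
      rw [(asIso (pullback.snd (𝟙 (Spec (CommRingCat.of k))) s)).hom.homeomorph.connectedSpace_iff]
      exact inferInstanceAs (ConnectedSpace (PrimeSpectrum K))
    · exact (isTrivial_zeroPt D CF (R := K)).iso h0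
  | succ n ih =>
    obtain ⟨X, x, f, hp, hc, ho, hf⟩ := ih
    obtain ⟨add, hadd⟩ := exists_add D CF
    haveI := geometricallyConnected_curve W'
    haveI : Smooth c := SmoothOfRelativeDimension.smooth 1 c
    let l : pullback x c ⟶ picSq D CF := pullback.lift (pullback.fst x c ≫ f.1)
      (pullback.snd x c ≫ a.1) (by
        rw [Category.assoc, Category.assoc, f.2, a.2, pullback.condition])
    refine ⟨pullback x c, pullback.fst x c ≫ x, ⟨l ≫ add.1, ?_⟩, inferInstance,
      GeometricallyConnected.comp _ _, inferInstance, ?_⟩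
    · rw [Category.assoc, add.2, pullback.lift_fst_assoc, Category.assoc, f.2]
    intro K _ _ Q S h0 hS
    obtain ⟨g, hg⟩ := hf K (fun i => Q i.castSucc) (fun i => S i.castSucc) h0
      (fun i => hS i.castSucc)
    let g' : SchemeHomOver (specStr k K) (pullback.fst x c ≫ x) :=
      ⟨pullback.lift g.1 (Q (Fin.last n)).1 (g.2.trans (Q (Fin.last n)).2.symm), by
        rw [pullback.lift_fst_assoc]; exact g.2⟩
    refine ⟨g', ?_⟩
    let h : SchemeHomOver (specStr k K) (picSqBase D CF) :=
      ⟨g'.1 ≫ l, by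
        rw [Category.assoc, pullback.lift_fst_assoc, Category.assoc, f.2]; exact g'.2⟩
    have h1 : postComp (sqFst D CF) h = postComp f g :=
      Subtype.ext (by simp only [postComp, sqFst, h, l, g', Category.assoc, pullback.lift_fst,
        pullback.lift_fst_assoc])
    have h2 : postComp (sqSnd D CF) h = postComp a (Q (Fin.last n)) :=
      Subtype.ext (by simp only [postComp, sqSnd, h, l, g', Category.assoc, pullback.lift_snd,
        pullback.lift_snd_assoc])
    have h3 : postComp (⟨l ≫ add.1, by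
        rw [Category.assoc, add.2, pullback.lift_fst_assoc, Category.assoc, f.2]⟩ :
          SchemeHomOver (pullback.fst x c ≫ x) (picBase D CF)) g' = postComp add h :=
      Subtype.ext (Category.assoc _ _ _).symm
    rw [h3]
    have := hadd K h
    rw [h1, h2] at this
    exact Bundle.isTensor_unique hg (Bundle.iso_refl _) this (hS (Fin.last n))

/-- **The Jacobian is proper and geometrically connected.** -/
theorem isProper_picBase [SmoothOfRelativeDimension 1 c] :
    IsProper (picBase D CF) ∧ GeometricallyConnected (picBase D CF) := by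
  obtain ⟨g, a, ha⟩ := exists_abelJacobi D CF
  obtain ⟨X, x, f, hp, hc, -, hf⟩ := exists_power D CF W a g
  haveI : Surjective f.1 := ⟨fun z => by
    let K := AlgebraicClosure ((picScheme D CF).residueField z)
    let s : Spec (CommRingCat.of K) ⟶ picScheme D CF :=
      Spec.map (CommRingCat.ofHom (algebraMap ((picScheme D CF).residueField z) K)) ≫
        (picScheme D CF).fromSpecResidueField z
    obtain ⟨hA, hg⟩ := exists_algebra_specStr (s ≫ picBase D CF)
    obtain ⟨Q, S, h0, hS, hlast⟩ := ha K ⟨s, hg.symm⟩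
    obtain ⟨q, hq⟩ := hf K Q S h0 hS
    have := congrArg Subtype.val (ptBundle_ext D CF (Bundle.iso_trans hq (Bundle.iso_symm hlast)))
    refine ⟨q.1.base (IsLocalRing.closedPoint K), ?_⟩
    exact (Scheme.Hom.comp_apply _ _ _).symm.trans ((congrArg
      (fun h : Spec (CommRingCat.of K) ⟶ picScheme D CF => h.base (IsLocalRing.closedPoint K))
      this).trans ((Scheme.Hom.comp_apply _ _ _).trans (Scheme.fromSpecResidueField_apply _ _)))⟩
  have hfx : f.1 ≫ picBase D CF = x := f.2
  haveI : UniversallyClosed (f.1 ≫ picBase D CF) := by rw [hfx]; infer_instance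
  haveI : UniversallyClosed (picBase D CF) := .of_comp_surjective f.1 _
  haveI : GeometricallyConnected (f.1 ≫ picBase D CF) := by rw [hfx]; exact hc
  refine ⟨⟨⟩, ⟨geometrically_iff_of_isClosedUnderIsomorphisms.mpr fun K _ s => ?_⟩⟩
  haveI : ConnectedSpace (pullback (f.1 ≫ picBase D CF) s : Scheme.{u}) :=
    GeometricallyConnected.geometrically_connectedSpace _ _ _ (.of_hasPullback _ _)
  let m := pullback.map (f.1 ≫ picBase D CF) s (picBase D CF) s f.1 (𝟙 _) (𝟙 _) (by simp) (by simp)
  have hm : Function.Surjective m.base := by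
    haveI : Surjective m :=
      MorphismProperty.of_isPullback (P := @Surjective)
        (IsPullback.of_right (h₁₂ := pullback.snd (picBase D CF) s) (v₁₃ := s)
          (h₁₁ := m) (v₁₁ := pullback.fst (f.1 ≫ picBase D CF) s)
          (v₁₂ := pullback.fst (picBase D CF) s) (h₂₁ := f.1) (h₂₂ := picBase D CF)
          (by
            rw [show m ≫ pullback.snd (picBase D CF) s = pullback.snd (f.1 ≫ picBase D CF) s by
              simp only [m, pullback.map, pullback.lift_snd, Category.comp_id]]
            exact (IsPullback.of_hasPullback (f.1 ≫ picBase D CF) s).flip)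
          (by simp only [m, pullback.map, pullback.lift_fst]) (IsPullback.of_hasPullback (picBase D CF) s).flip).flip
        inferInstance
    exact m.surjective
  exact hm.connectedSpace m.continuous

end FLTAgent.JacRep
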