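import Fermat.Agent.JacRep.Asm.Sheaf
import Fermat.Agent.JacRep.Charts

/-!
# The charts as open subfunctors

For a point over `T` and a chart `i`, `goodOpen` is the open locus where the chart condition holds
(`good_iff_range_subset`). On it the point is the restriction of the universal point of the chart
along a unique morphism (`exists_classify`, `univPoint_inj`), so `chartHom`, the map from the
spectrum of the chart ring to the sheaf of classes, is an open immersion of functors
(`chartHom_isOpenImmersion`).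
-/

set_option autoImplicit false
set_option linter.style.haveILetI false

noncomputable section

open CategoryTheory CategoryTheory.Limits AlgebraicGeometry AlgebraicGeometry.RelPicard
  NeronModelInfra Opposite

universe u

namespace FLTAgent.JacRep

variable {k : Type u} [Field k] [IsAlgClosed k] {Cv : Cover k} {C : Scheme.{u}}
  {c : C ⟶ Spec (CommRingCat.of k)} [IsProper c]
  {ε : SchemeHomOver (𝟙 (Spec (CommRingCat.of k))) c} {W : Realization Cv c ε} (D : Dictionary W)
  (CF : ChartFamily Cv) {T T' : Scheme.{u}}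

omit [IsAlgClosed k] in
theorem good_iso (i : CF.Index) {R : Type u} [CommRing R] [Algebra k R] {E E' : Bundle Cv R}
    (h : E'.Iso E) (hr : E.IsRigidified) (hd : E.DegreeZero) :
    CF.Good i R E' ↔ CF.Good i R E := by
  obtain ⟨I, hI⟩ := CF.isOpen i R E hr hd
  rw [hI R (AlgHom.id k R) E' (Bundle.isPullback_of_iso (Bundle.iso_refl E) (Bundle.iso_symm h)
      (Bundle.isPullback_id E)),
    hI R (AlgHom.id k R) E (Bundle.isPullback_id E)]

/-- The point is good at every affine point in `V`. -/
def GoodOn (i : CF.Index) (a : Point c ε T) (V : T.Opens) : Prop :=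
  ∀ (R : Type u) [CommRing R] [Algebra k R] (g : SchemeHomOver (specStr k R) a.base),
    Set.range g.1.base ⊆ (V : Set T) → CF.Good i R (a.bundleAt D R g)

/-- The locus of a chart. -/
def goodOpen (i : CF.Index) (a : Point c ε T) : T.Opens :=
  sSup {V | GoodOn D CF i a V}

/-- The condition of a chart holds at an affine point iff it lands in the locus. -/
theorem good_iff_range_subset (i : CF.Index) (a : Point c ε T) (R : Type u) [CommRing R]
    [Algebra k R] (g : SchemeHomOver (specStr k R) a.base) :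
    CF.Good i R (a.bundleAt D R g) ↔ Set.range g.1.base ⊆ (goodOpen D CF i a : Set T) := by
  obtain ⟨I, hI⟩ := CF.isOpen i R _ (a.bundleAt_rigidified D R g) (a.bundleAt_degreeZero D R g)
  have hid := hI R (AlgHom.id k R) _ (Bundle.isPullback_id _)
  constructor
  · intro hgood
    rintro _ ⟨p, rfl⟩
    obtain ⟨𝒰⟩ : Nonempty T.AffineOpenCover := ⟨T.affineOpenCover⟩
    obtain ⟨l, z, hz⟩ := 𝒰.openCover.exists_eq (g.1.base p)
    obtain ⟨A, j, hj⟩ : ∃ (A : CommRingCat.{u}) (j : Spec A ⟶ T),
        IsOpenImmersion j ∧ g.1.base p ∈ Set.range j.base := ⟨𝒰.X l, 𝒰.f l, 𝒰.map_prop l, z, hz⟩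
    haveI := hj.1
    obtain ⟨hA, hg⟩ := exists_algebra_specStr (R := (A : Type u)) (j ≫ a.base)
    let ga : SchemeHomOver (specStr k A) a.base := ⟨j, hg.symm⟩
    obtain ⟨J, hJ⟩ := CF.isOpen i A _ (a.bundleAt_rigidified D A ga) (a.bundleAt_degreeZero D A ga)
    obtain ⟨_, ⟨f, rfl⟩, hpf, hfj⟩ := (PrimeSpectrum.isTopologicalBasis_basic_opens (R := R)).isOpen_iff.1
      ((j.opensRange.2).preimage g.1.continuous) p hj.2
    let Rf := Localization.Away f
    let φR : R →ₐ[k] Rf := IsScalarTower.toAlgHom k R Rf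
    have hrange : Set.range (specOver φR).1.base = (↑(PrimeSpectrum.basicOpen (R := R) f) : Set (PrimeSpectrum R)) :=
      PrimeSpectrum.localization_away_comap_range Rf f
    have hsub : Set.range (postComp g (specOver φR)).1.base ⊆ Set.range j.base := by
      rintro _ ⟨q, rfl⟩
      exact hfj (hrange.subset ⟨q, rfl⟩)
    let gl := IsOpenImmersion.lift j (postComp g (specOver φR)).1 hsub
    obtain ⟨φ, hφ⟩ := exists_specOver (R := (A : Type u)) (S := Rf) ⟨gl, by
      rw [hg, ← Category.assoc, IsOpenImmersion.lift_fac]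
      exact (postComp g (specOver φR)).2⟩
    have heq : postComp ga (specOver φ) = postComp g (specOver φR) := by
      rw [hφ]
      exact Subtype.ext (IsOpenImmersion.lift_fac _ _ _)
    have hgf : CF.Good i Rf (a.bundleAt D Rf (postComp g (specOver φR))) := by
      rw [hI Rf φR _ (a.bundleAt_pullback D φR g)]
      rw [show I = ⊤ by simpa using hid.1 hgood]
      exact Ideal.map_top _
    have hJtop : J.map (φ : (A : Type u) →+* Rf) = ⊤ := by
      rw [← hJ Rf φ _ (a.bundleAt_pullback D φ ga), heq]
      exact hgf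
    obtain ⟨q, hq⟩ : p ∈ Set.range (specOver φR).1.base := by rw [hrange]; exact hpf
    have hJq : ¬ J ≤ Ideal.comap (φ : (A : Type u) →+* Rf) q.asIdeal := fun h =>
      q.isPrime.ne_top (top_unique (hJtop ▸ Ideal.map_le_iff_le_comap.2 h))
    obtain ⟨f', hf'J, hf'q⟩ := SetLike.not_le_iff_exists.1 hJq
    have hgl : gl = Spec.map (CommRingCat.ofHom φ.toRingHom) := (congrArg Subtype.val hφ).symm
    refine TopologicalSpace.Opens.mem_sSup.2 ⟨j ''ᵁ PrimeSpectrum.basicOpen f', ?_, ?_⟩
    · intro R' _ _ g' hg'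
      have hsub' : Set.range g'.1.base ⊆ Set.range j.base := fun x hx => by
        obtain ⟨y, -, rfl⟩ := hg' hx
        exact ⟨y, rfl⟩
      let gl' := IsOpenImmersion.lift j g'.1 hsub'
      obtain ⟨φ', hφ'⟩ := exists_specOver (R := (A : Type u)) (S := R') ⟨gl', by
        rw [hg, ← Category.assoc, IsOpenImmersion.lift_fac]
        exact g'.2⟩
      have heq' : postComp ga (specOver φ') = g' := by
        rw [hφ']
        exact Subtype.ext (IsOpenImmersion.lift_fac _ _ _)
      rw [← heq', hJ R' φ' _ (a.bundleAt_pullback D φ' ga)]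
      by_contra hne
      obtain ⟨m, hm, hJm⟩ := Ideal.exists_le_maximal _ hne
      obtain ⟨y, hy, hy'⟩ := hg' ⟨⟨m, hm.isPrime⟩, rfl⟩
      have : y = gl'.base ⟨m, hm.isPrime⟩ := by
        apply j.isOpenEmbedding.injective
        exact hy'.trans ((congrArg (fun h => h.base (⟨m, hm.isPrime⟩ : PrimeSpectrum R'))
          (IsOpenImmersion.lift_fac j g'.1 hsub')).symm.trans (Scheme.Hom.comp_apply _ _ _))
      rw [this, ← show (specOver φ').1 = gl' from congrArg Subtype.val hφ'] at hy
      exact hy (hJm (Ideal.mem_map_of_mem _ hf'J))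
    · refine ⟨gl.base q, ?_, ?_⟩
      · rw [hgl]
        exact hf'q
      · rw [← hq]
        exact (Scheme.Hom.comp_apply _ _ _).symm.trans
          ((congrArg (fun h : Spec (CommRingCat.of Rf) ⟶ T => h.base q)
            (IsOpenImmersion.lift_fac j (postComp g (specOver φR)).1 hsub)).trans
            (Scheme.Hom.comp_apply _ _ _))
  · intro hsub
    by_contra hne
    have hItop : I ≠ ⊤ := fun h => hne (hid.2 (by simpa using h))
    obtain ⟨m, hm, hIm⟩ := Ideal.exists_le_maximal _ hItop
    obtain ⟨V, hV, hmV⟩ := TopologicalSpace.Opens.mem_sSup.1 (hsub ⟨⟨m, hm.isPrime⟩, rfl⟩)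
    obtain ⟨_, ⟨f, rfl⟩, hmf, hfV⟩ := (PrimeSpectrum.isTopologicalBasis_basic_opens (R := R)).isOpen_iff.1
      (V.2.preimage g.1.continuous) ⟨m, hm.isPrime⟩ hmV
    let Rf := Localization.Away f
    let φR : R →ₐ[k] Rf := IsScalarTower.toAlgHom k R Rf
    have hrange : Set.range (specOver φR).1.base = (↑(PrimeSpectrum.basicOpen (R := R) f) : Set (PrimeSpectrum R)) :=
      PrimeSpectrum.localization_away_comap_range Rf f
    have hg : CF.Good i Rf (a.bundleAt D Rf (postComp g (specOver φR))) := by
      refine hV Rf _ ?_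
      rintro _ ⟨q, rfl⟩
      exact hfV (hrange.subset ⟨q, rfl⟩)
    rw [hI Rf φR _ (a.bundleAt_pullback D φR g)] at hg
    obtain ⟨q, hq⟩ : (⟨m, hm.isPrime⟩ : PrimeSpectrum R) ∈ Set.range (specOver φR).1.base := by
      rw [hrange]; exact hmf
    have hqm : Ideal.comap (φR : R →+* Rf) q.asIdeal = m := congrArg PrimeSpectrum.asIdeal hq
    exact q.isPrime.ne_top (top_unique (hg ▸ Ideal.map_le_iff_le_comap.2 (hIm.trans hqm.ge)))

/-- The universal bundle of a chart is the bundle of a point. -/
theorem exists_univPoint (i : CF.Index) :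
    ∃ (a : Point c ε (Spec (CommRingCat.of (CF.ring i)))) (h : specStr k (CF.ring i) = a.base),
      (a.bundleAt D (CF.ring i) ⟨𝟙 _, (Category.id_comp _).trans h.symm⟩).Iso (CF.univ i) :=
  exists_point_of_bundle D _ _ (CF.univ_rigidified i) (CF.univ_degreeZero i)

/-- The universal point of a chart. -/
def univPoint (i : CF.Index) : Point c ε (Spec (CommRingCat.of (CF.ring i))) :=
  (exists_univPoint D CF i).choose

theorem univPoint_base (i : CF.Index) : specStr k (CF.ring i) = (univPoint D CF i).base :=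
  (exists_univPoint D CF i).choose_spec.1

/-- At an affine point the universal bundle pulls back. -/
theorem bundleAt_univPoint (i : CF.Index) (R : Type u) [CommRing R] [Algebra k R]
    (φ : CF.ring i →ₐ[k] R)
    (h : SchemeHomOver (specStr k R) (univPoint D CF i).base) (hh : h.1 = (specOver φ).1) :
    Bundle.IsPullback φ (CF.univ i) ((univPoint D CF i).bundleAt D R h) := by
  have e : postComp (⟨𝟙 _, (Category.id_comp _).trans (univPoint_base D CF i).symm⟩ :
      SchemeHomOver (specStr k (CF.ring i)) (univPoint D CF i).base) (specOver φ) = h :=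
    Subtype.ext (by rw [hh]; exact Category.comp_id _)
  have := (univPoint D CF i).bundleAt_pullback D φ
    (⟨𝟙 _, (Category.id_comp _).trans (univPoint_base D CF i).symm⟩ :
      SchemeHomOver (specStr k (CF.ring i)) (univPoint D CF i).base)
  rw [e] at this
  exact Bundle.isPullback_of_iso (exists_univPoint D CF i).choose_spec.2 (Bundle.iso_refl _) this

theorem univPoint_good (i : CF.Index) (R : Type u) [CommRing R] [Algebra k R]
    (h : SchemeHomOver (specStr k R) (univPoint D CF i).base) :
    CF.Good i R ((univPoint D CF i).bundleAt D R h) := by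
  obtain ⟨φ, hφ⟩ := exists_specOver (R := CF.ring i) (S := R)
    ⟨h.1, by rw [univPoint_base D CF i]; exact h.2⟩
  obtain ⟨I, hI⟩ := CF.isOpen i _ _ (CF.univ_rigidified i) (CF.univ_degreeZero i)
  have h₁ := (hI _ (AlgHom.id k _) _ (Bundle.isPullback_id _)).1 (CF.univ_good i)
  rw [hI R φ _ (bundleAt_univPoint D CF i R φ h (congrArg Subtype.val hφ).symm),
    show I = ⊤ by simpa using h₁]
  exact Ideal.map_top _

/-- Maps into a chart are determined by the restricted universal point. -/
theorem univPoint_inj (i : CF.Index) {b : Point c ε T}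
    {f f' : T ⟶ Spec (CommRingCat.of (CF.ring i))} (h : Pulls f (univPoint D CF i) b)
    (h' : Pulls f' (univPoint D CF i) b) : f = f' := by
  apply hom_ext_affine
  intro R _ ℓ
  obtain ⟨hA, hg⟩ := exists_algebra_specStr (ℓ ≫ b.base)
  let g : SchemeHomOver (specStr k R) b.base := ⟨ℓ, hg.symm⟩
  obtain ⟨φ, hφ⟩ := exists_specOver (R := CF.ring i) (S := R)
    ⟨ℓ ≫ f, by rw [univPoint_base D CF i, Category.assoc, h.1]; exact hg.symm⟩
  obtain ⟨φ', hφ'⟩ := exists_specOver (R := CF.ring i) (S := R)
    ⟨ℓ ≫ f', by rw [univPoint_base D CF i, Category.assoc, h'.1]; exact hg.symm⟩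
  let gf : SchemeHomOver (specStr k R) (univPoint D CF i).base :=
    ⟨ℓ ≫ f, by rw [Category.assoc, h.1]; exact hg.symm⟩
  let gf' : SchemeHomOver (specStr k R) (univPoint D CF i).base :=
    ⟨ℓ ≫ f', by rw [Category.assoc, h'.1]; exact hg.symm⟩
  have e := (univPoint D CF i).bundleAt_of_pulls D h R g gf rfl
  have e' := (univPoint D CF i).bundleAt_of_pulls D h' R g gf' rfl
  have hgood : CF.Good i R (b.bundleAt D R g) :=
    (good_iso CF i e ((univPoint D CF i).bundleAt_rigidified D R gf)
      ((univPoint D CF i).bundleAt_degreeZero D R gf)).2 (univPoint_good D CF i R gf)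
  have heq : φ = φ' := (CF.represents i R _ (b.bundleAt_rigidified D R g)
    (b.bundleAt_degreeZero D R g) hgood).unique
    ⟨_, bundleAt_univPoint D CF i R φ gf (congrArg Subtype.val hφ).symm, Bundle.iso_symm e⟩
    ⟨_, bundleAt_univPoint D CF i R φ' gf' (congrArg Subtype.val hφ').symm, Bundle.iso_symm e'⟩
  subst heq
  exact congrArg Subtype.val (hφ.symm.trans hφ')

/-- On the locus of a chart a point is a restriction of the universal one. -/
theorem exists_classify (i : CF.Index) (a : Point c ε T) :
    ∃ q : (goodOpen D CF i a).toScheme ⟶ Spec (CommRingCat.of (CF.ring i)),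
      Pulls q (univPoint D CF i) (a.pull (goodOpen D CF i a).ι) := by
  let U := goodOpen D CF i a
  have hgood : ∀ (R : Type u) [CommRing R] [Algebra k R]
      (g : SchemeHomOver (specStr k R) (a.pull U.ι).base),
      CF.Good i R (a.bundleAt D R (postComp ⟨U.ι, rfl⟩ g)) := fun R _ _ g => by
    rw [good_iff_range_subset]
    rintro _ ⟨x, rfl⟩
    exact (g.1.base x).2
  have huniq := fun (R : Type u) [CommRing R] [Algebra k R]
      (g : SchemeHomOver (specStr k R) (a.pull U.ι).base) =>
    CF.represents i R _ (a.bundleAt_rigidified D R _) (a.bundleAt_degreeZero D R _) (hgood R g)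
  obtain ⟨q, hq⟩ := exists_hom_of_points (x := (a.pull U.ι).base) (y := specStr k (CF.ring i))
    (fun R _ _ g => specOver (huniq R g).choose) fun R S _ _ _ _ φ g => by
      obtain ⟨⟨E', hE', hiso⟩, -⟩ := (huniq R g).choose_spec
      have hu := (huniq S (postComp g (specOver φ))).choose_spec.2 (φ.comp (huniq R g).choose)
      have hp : Bundle.IsPullback (φ.comp (huniq R g).choose) (CF.univ i)
          (a.bundleAt D S (postComp ⟨U.ι, rfl⟩ (postComp g (specOver φ)))) := by
        have h2 := a.bundleAt_pullback D φ (postComp ⟨U.ι, rfl⟩ g)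
        have e : postComp (postComp (⟨U.ι, rfl⟩ : SchemeHomOver (a.pull U.ι).base a.base) g)
            (specOver φ) = postComp ⟨U.ι, rfl⟩ (postComp g (specOver φ)) :=
          Subtype.ext (by simp [postComp])
        exact Bundle.isPullback_comp
          (Bundle.isPullback_of_iso (Bundle.iso_refl _) hiso hE') (e ▸ h2)
      rw [← hu ⟨_, hp, Bundle.iso_refl _⟩]
      apply Subtype.ext
      show Spec.map _ = Spec.map _ ≫ Spec.map _
      rw [← Spec.map_comp]
      rfl
  refine ⟨q.1, (pulls_iff D).2 ⟨?_, fun R _ _ g g' hg' => ?_⟩⟩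
  · rw [← univPoint_base D CF i]
    exact q.2
  · obtain ⟨⟨E', hE', hiso⟩, -⟩ := (huniq R g).choose_spec
    have hval : g'.1 = (specOver (huniq R g).choose).1 := by
      rw [← hg', hq R g]; rfl
    refine Bundle.iso_trans ((Point.bundleAt_of_pulls D (pulls_pull a U.ι) R g
      (postComp ⟨U.ι, rfl⟩ g) rfl)) (Bundle.iso_trans (Bundle.iso_symm hiso) ?_)
    exact Bundle.isPullback_unique (Bundle.iso_refl _) hE'
      (bundleAt_univPoint D CF i R _ g' hval)

/-- A map factors through the locus iff the restriction is one of the universal point. -/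
theorem pulls_univ_iff (i : CF.Index) (a : Point c ε T) (h : T' ⟶ T) (b : Point c ε T')
    (hb : Pulls h a b) :
    (∃ f, Pulls f (univPoint D CF i) b) ↔
      Set.range h.base ⊆ (goodOpen D CF i a : Set T) := by
  constructor
  · rintro ⟨f, hf⟩ _ ⟨y, rfl⟩
    obtain ⟨𝒰⟩ : Nonempty T'.AffineOpenCover := ⟨T'.affineOpenCover⟩
    obtain ⟨l, z, hz⟩ := 𝒰.openCover.exists_eq y
    obtain ⟨hA, hg⟩ := exists_algebra_specStr (R := (𝒰.X l : Type u)) (𝒰.f l ≫ b.base)
    let g : SchemeHomOver (specStr k (𝒰.X l)) b.base := ⟨𝒰.f l, hg.symm⟩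
    let gh : SchemeHomOver (specStr k (𝒰.X l)) a.base :=
      ⟨𝒰.f l ≫ h, by rw [Category.assoc, hb.1]; exact hg.symm⟩
    let gf : SchemeHomOver (specStr k (𝒰.X l)) (univPoint D CF i).base :=
      ⟨𝒰.f l ≫ f, by rw [Category.assoc, hf.1]; exact hg.symm⟩
    have h₁ : CF.Good i _ (b.bundleAt D _ g) :=
      (good_iso CF i ((univPoint D CF i).bundleAt_of_pulls D hf _ g gf rfl)
        ((univPoint D CF i).bundleAt_rigidified D _ gf)
        ((univPoint D CF i).bundleAt_degreeZero D _ gf)).2 (univPoint_good D CF i _ gf)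
    have h₂ : CF.Good i _ (a.bundleAt D _ gh) :=
      (good_iso CF i (a.bundleAt_of_pulls D hb _ g gh rfl) (a.bundleAt_rigidified D _ gh)
        (a.bundleAt_degreeZero D _ gh)).1 h₁
    exact (good_iff_range_subset D CF i a _ gh).1 h₂
      ⟨z, (Scheme.Hom.comp_apply _ _ _).trans (congrArg h.base hz)⟩
  · intro hsub
    obtain ⟨q, hq⟩ := exists_classify D CF i a
    let v := IsOpenImmersion.lift (goodOpen D CF i a).ι h (by simpa using hsub)
    have hv : v ≫ (goodOpen D CF i a).ι = h := IsOpenImmersion.lift_fac _ _ _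
    refine ⟨v ≫ q, pulls_congr (pulls_refl _) ?_ (pulls_comp hq (pulls_pull _ v))⟩
    have h₁ := pulls_comp (pulls_pull a (goodOpen D CF i a).ι)
      (pulls_pull (a.pull (goodOpen D CF i a).ι) v)
    rw [hv] at h₁
    exact pulls_unique h₁ hb

/-- The chart as a transformation. -/
def chartHom (i : CF.Index) :
    yoneda.obj (Spec (CommRingCat.of (CF.ring i))) ⟶ (picSheaf W).1 :=
  yonedaEquiv.symm (cls W (univPoint D CF i))

theorem chartHom_apply (i : CF.Index) (f : T ⟶ Spec (CommRingCat.of (CF.ring i))) :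
    (chartHom D CF i).app (op T) f = picMap W f (cls W (univPoint D CF i)) := rfl

/-- The charts are open subfunctors. -/
theorem chartHom_isOpenImmersion (i : CF.Index) :
    IsOpenImmersion.presheaf (chartHom D CF i) := by
  refine MorphismProperty.relative.of_exists fun T g => ?_
  obtain ⟨a, ha⟩ := cls_surjective W (yonedaEquiv g)
  obtain ⟨q, hq⟩ := exists_classify D CF i a
  let U := goodOpen D CF i a
  have hg : ∀ {S : Scheme.{u}} (h : S ⟶ T), g.app (op S) h = picMap W h (cls W a) := by
    intro S h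
    rw [ha]
    have := yonedaEquiv_naturality g h
    exact ((congrArg (fun η => (yonedaEquiv.symm η).app (op S) h) rfl).trans
      (congr_arg (fun η => η.app (op S) h) (yonedaEquiv.symm_apply_apply g))).symm.trans rfl |>.trans
      (by rfl)
  refine ⟨U.toScheme, yoneda.map q, U.ι, ?_, inferInstance⟩
  refine IsPullback.of_forall_isPullback_app fun S => ?_
  rw [Types.isPullback_iff]
  refine ⟨?_, ?_, ?_⟩
  · ext (v : S.unop ⟶ U.toScheme)
    show (chartHom D CF i).app S (v ≫ q) = g.app S (v ≫ U.ι)
    rw [chartHom_apply, hg, ← picMap_picMap, ← picMap_picMap W U.ι v, picMap_cls W U.ι,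
      (picMap_cls_eq_iff W q _ _).2 hq]
  · rintro (v : S.unop ⟶ U.toScheme) (v' : S.unop ⟶ U.toScheme) ⟨-, hv⟩
    exact (cancel_mono U.ι).1 hv
  · rintro (f : S.unop ⟶ Spec (CommRingCat.of (CF.ring i))) (h : S.unop ⟶ T) hfh
    change (chartHom D CF i).app S f = g.app S h at hfh
    rw [chartHom_apply, hg, picMap_cls W h] at hfh
    replace hfh := (picMap_cls_eq_iff W f _ _).1 hfh
    have hsub := (pulls_univ_iff D CF i a h _ (pulls_pull a h)).1 ⟨f, hfh⟩
    let v := IsOpenImmersion.lift U.ι h (by simpa using hsub)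
    refine ⟨v, univPoint_inj D CF i (pulls_congr (pulls_refl _) ?_ (pulls_comp hq (pulls_pull _ v)))
      hfh, IsOpenImmersion.lift_fac _ _ _⟩
    have h₁ := pulls_comp (pulls_pull a U.ι) (pulls_pull (a.pull U.ι) v)
    rw [IsOpenImmersion.lift_fac] at h₁
    exact pulls_unique h₁ (pulls_pull a h)

end FLTAgent.JacRep
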