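import Fermat.Agent.JacRep.Asm.Repr
import Fermat.Agent.JacRep.BundleAlg
import Mathlib.AlgebraicGeometry.Morphisms.Separated

/-!
# Zero, addition and subtraction on the Jacobian

* `ptBundle`: the bundle of an affine point; `ptBundle_ext` and `exists_ptBundle` identify affine
  points with rigidified bundles of degree zero.
* `picZero`, `exists_add`, `exists_sub`: the zero section and the morphisms given on affine points
  by tensor products and by division of bundles.
* `isClosedImmersion_picZero`, `isSeparated_picBase`: the diagonal is the preimage of the closed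
  zero section under subtraction, so the Jacobian is separated.
-/

set_option autoImplicit false
set_option linter.style.haveILetI false

noncomputable section

open CategoryTheory CategoryTheory.Limits AlgebraicGeometry AlgebraicGeometry.RelPicard
  NeronModelInfra Opposite

universe u

namespace FLTAgent.JacRep

variable {k : Type u} [Field k] [IsAlgClosed k] {Cv : Cover k} {C : Scheme.{u}}
  {c : C ⟶ Spec (CommRingCat.of k)} [IsProper c]
  {ε : SchemeHomOver (𝟙 (Spec (CommRingCat.of k))) c} {W : Realization Cv c ε} (D : Dictionary W)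
  (CF : ChartFamily Cv) {R : Type u} [CommRing R] [Algebra k R]
  {S : Type u} [CommRing S] [Algebra k S]

/-- The bundle of an affine point of the Jacobian. -/
def ptBundle (g : SchemeHomOver (specStr k R) (picBase D CF)) : Bundle Cv R :=
  (picPoint D CF).bundleAt D R g

theorem ptBundle_pullback (φ : R →ₐ[k] S) (g : SchemeHomOver (specStr k R) (picBase D CF)) :
    Bundle.IsPullback φ (ptBundle D CF g) (ptBundle D CF (postComp g (specOver φ))) :=
  (picPoint D CF).bundleAt_pullback D φ g

theorem ptBundle_ext {g g' : SchemeHomOver (specStr k R) (picBase D CF)}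
    (h : (ptBundle D CF g).Iso (ptBundle D CF g')) : g = g' := by
  obtain ⟨e⟩ := (D.iso_iff R _ _).1 h
  exact (existsUnique_classify D CF ((picPoint D CF).mod.pullbackAlong g')
    ((picPoint D CF).mem.pullback g')).unique ⟨e⟩ ⟨Iso.refl _⟩

theorem exists_ptBundle (E : Bundle Cv R) (hr : E.IsRigidified) (hd : E.DegreeZero) :
    ∃ g : SchemeHomOver (specStr k R) (picBase D CF), (ptBundle D CF g).Iso E := by
  obtain ⟨M, hM⟩ := D.surjective R E hr
  obtain ⟨g, hg, -⟩ := existsUnique_classify D CF M
    ((fibrewise_iff_degreeZero W D M).2 (degreeZero_of_iso hM hd))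
  exact ⟨g, Bundle.iso_trans ((D.iso_iff R _ _).2 hg) hM⟩

/-- The zero section. -/
def picZero : SchemeHomOver (𝟙 (Spec (CommRingCat.of k))) (picBase D CF) :=
  (existsUnique_classify D CF (RigidifiedLineBundle.unit (𝟙 _))
    (fibrewiseAlgEquivZero_unit _)).choose

theorem picZero_spec : Nonempty (((picPoint D CF).mod.pullbackAlong (picZero D CF)).L ≅
    (RigidifiedLineBundle.unit (c := c) (ε := ε) (𝟙 (Spec (CommRingCat.of k)))).L) :=
  (existsUnique_classify D CF (RigidifiedLineBundle.unit (𝟙 _))
    (fibrewiseAlgEquivZero_unit _)).choose_spec.1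

/-- The zero point over `R`. -/
def zeroPt (R : Type u) [CommRing R] [Algebra k R] :
    SchemeHomOver (specStr k R) (picBase D CF) :=
  postComp (picZero D CF) ⟨specStr k R, Category.comp_id _⟩

theorem isTrivial_zeroPt : IsTrivial (ptBundle D CF (zeroPt D CF R)) := by
  refine IsTrivial.of_iso (D.unit_trivial R) ((D.iso_iff R _ _).2 ?_)
  obtain ⟨e⟩ := picZero_spec D CF
  obtain ⟨e'⟩ := nonempty_pullbackAlong_comp (picPoint D CF).mod (picZero D CF)
    (⟨specStr k R, Category.comp_id _⟩ : SchemeHomOver (specStr k R) (𝟙 _))
  exact ⟨e'.symm ≪≫ (Scheme.Modules.pullback _).mapIso e ≪≫ Scheme.Modules.pullbackUnitIso _⟩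

/-- The square of the Jacobian. -/
abbrev picSq : Scheme.{u} := pullback (picBase D CF) (picBase D CF)

/-- Its structure map. -/
abbrev picSqBase : picSq D CF ⟶ Spec (CommRingCat.of k) :=
  pullback.fst (picBase D CF) (picBase D CF) ≫ picBase D CF

/-- The projections. -/
def sqFst : SchemeHomOver (picSqBase D CF) (picBase D CF) := ⟨pullback.fst _ _, rfl⟩

/-- The projections. -/
def sqSnd : SchemeHomOver (picSqBase D CF) (picBase D CF) :=
  ⟨pullback.snd _ _, pullback.condition.symm⟩

/-- Addition, given on affine points by tensor products. -/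
theorem exists_add : ∃ f : SchemeHomOver (picSqBase D CF) (picBase D CF),
    ∀ (R : Type u) [CommRing R] [Algebra k R] (g : SchemeHomOver (specStr k R) (picSqBase D CF)),
      Bundle.IsTensor (ptBundle D CF (postComp (sqFst D CF) g))
        (ptBundle D CF (postComp (sqSnd D CF) g)) (ptBundle D CF (postComp f g)) := by
  have hex : ∀ (R : Type u) [CommRing R] [Algebra k R]
      (g : SchemeHomOver (specStr k R) (picSqBase D CF)),
      ∃ p, Bundle.IsTensor (ptBundle D CF (postComp (sqFst D CF) g))
        (ptBundle D CF (postComp (sqSnd D CF) g)) (ptBundle D CF p) := by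
    intro R _ _ g
    obtain ⟨F, hF⟩ := Bundle.exists_tensor (ptBundle D CF (postComp (sqFst D CF) g))
      (ptBundle D CF (postComp (sqSnd D CF) g))
    obtain ⟨p, hp⟩ := exists_ptBundle D CF F
      (Bundle.isRigidified_tensor hF ((picPoint D CF).bundleAt_rigidified D R _)
        ((picPoint D CF).bundleAt_rigidified D R _))
      (degreeZero_tensor hF ((picPoint D CF).bundleAt_degreeZero D R _)
        ((picPoint D CF).bundleAt_degreeZero D R _))
    exact ⟨p, isTensor_congr hF (Bundle.iso_refl _) (Bundle.iso_refl _) (Bundle.iso_symm hp)⟩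
  choose p hp using hex
  obtain ⟨f, hf⟩ := exists_hom_of_points (x := picSqBase D CF) (y := picBase D CF)
    (fun R _ _ g => p R g) fun R S _ _ _ _ φ g => by
      apply ptBundle_ext
      obtain ⟨H, hH⟩ := Bundle.exists_tensor
        (ptBundle D CF (postComp (postComp (sqFst D CF) g) (specOver φ)))
        (ptBundle D CF (postComp (postComp (sqSnd D CF) g) (specOver φ)))
      have hass : ∀ q : SchemeHomOver (picSqBase D CF) (picBase D CF),
          postComp (postComp q g) (specOver φ) = postComp q (postComp g (specOver φ)) :=
        fun q => Subtype.ext (Category.assoc _ _ _).symm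
      have h₁ : Bundle.IsPullback φ (ptBundle D CF (p R g)) H :=
        Bundle.isTensor_pullback (ptBundle_pullback D CF φ _) (ptBundle_pullback D CF φ _) (hp R g) hH
      have h₂ := Bundle.isPullback_unique (Bundle.iso_refl _)
        (ptBundle_pullback D CF φ (p R g)) h₁
      rw [hass, hass] at hH
      exact Bundle.iso_trans (Bundle.isTensor_unique (Bundle.iso_refl _) (Bundle.iso_refl _)
        (hp S _) hH) (Bundle.iso_symm h₂)
  exact ⟨f, fun R _ _ g => by rw [← hf R g]; exact hp R g⟩

/-- Subtraction, given on affine points by division of bundles. -/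
theorem exists_sub : ∃ f : SchemeHomOver (picSqBase D CF) (picBase D CF),
    ∀ (R : Type u) [CommRing R] [Algebra k R] (g : SchemeHomOver (specStr k R) (picSqBase D CF)),
      Bundle.IsTensor (ptBundle D CF (postComp f g))
        (ptBundle D CF (postComp (sqSnd D CF) g)) (ptBundle D CF (postComp (sqFst D CF) g)) := by
  have hex : ∀ (R : Type u) [CommRing R] [Algebra k R]
      (g : SchemeHomOver (specStr k R) (picSqBase D CF)),
      ∃ p, Bundle.IsTensor (ptBundle D CF p) (ptBundle D CF (postComp (sqSnd D CF) g))
        (ptBundle D CF (postComp (sqFst D CF) g)) := by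
    intro R _ _ g
    obtain ⟨E', U, hE', hU, hr⟩ :=
      Bundle.exists_inverse (ptBundle D CF (postComp (sqSnd D CF) g))
    obtain ⟨F, hF⟩ := Bundle.exists_tensor (ptBundle D CF (postComp (sqFst D CF) g)) E'
    obtain ⟨p, hp⟩ := exists_ptBundle D CF F
      (Bundle.isRigidified_tensor hF ((picPoint D CF).bundleAt_rigidified D R _)
        (hr ((picPoint D CF).bundleAt_rigidified D R _)))
      (degreeZero_tensor hF ((picPoint D CF).bundleAt_degreeZero D R _)
        (degreeZero_inverse D hE' hU ((picPoint D CF).bundleAt_degreeZero D R _)))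
    obtain ⟨G, hG⟩ := Bundle.exists_tensor F (ptBundle D CF (postComp (sqSnd D CF) g))
    have h1 := Bundle.isTensor_assoc hF hG (Bundle.isTensor_comm hE')
      (Bundle.isTensor_comm (IsTrivial.isTensor_left _ hU))
    exact ⟨p, isTensor_congr hG (Bundle.iso_symm hp) (Bundle.iso_refl _) h1⟩
  choose p hp using hex
  obtain ⟨f, hf⟩ := exists_hom_of_points (x := picSqBase D CF) (y := picBase D CF)
    (fun R _ _ g => p R g) fun R S _ _ _ _ φ g => by
      apply ptBundle_ext
      obtain ⟨H, hH⟩ := Bundle.exists_tensor (ptBundle D CF (postComp (p R g) (specOver φ)))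
        (ptBundle D CF (postComp (postComp (sqSnd D CF) g) (specOver φ)))
      have h₁ : Bundle.IsPullback φ (ptBundle D CF (postComp (sqFst D CF) g)) H :=
        Bundle.isTensor_pullback (ptBundle_pullback D CF φ _) (ptBundle_pullback D CF φ _) (hp R g) hH
      have h₂ := Bundle.isPullback_unique (Bundle.iso_refl _)
        (ptBundle_pullback D CF φ (postComp (sqFst D CF) g)) h₁
      have hass : ∀ q : SchemeHomOver (picSqBase D CF) (picBase D CF),
          postComp (postComp q g) (specOver φ) = postComp q (postComp g (specOver φ)) :=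
        fun q => Subtype.ext (Category.assoc _ _ _).symm
      rw [hass] at hH h₂
      exact tensor_cancel (hp S _) hH h₂
  exact ⟨f, fun R _ _ g => by rw [← hf R g]; exact hp R g⟩

/-- The zero section is a closed immersion. -/
theorem isClosedImmersion_picZero : IsClosedImmersion (picZero D CF).1 := by
  have key : ∀ i, ∀ p : Spec (CommRingCat.of k) ⟶ Spec (CommRingCat.of (CF.ring i)),
      p ≫ picChart D CF i = (picZero D CF).1 → IsClosedImmersion p := by
    intro i p hp
    obtain ⟨φ, hφ⟩ := exists_specOver (R := CF.ring i) (S := k) ⟨p, by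
      rw [← picChart_base D CF i, ← Category.assoc, hp, (picZero D CF).2]
      show 𝟙 _ = Spec.map (CommRingCat.ofHom (RingHom.id k))
      rw [CommRingCat.ofHom_id, Spec.map_id]⟩
    rw [← show (specOver φ).1 = p from congrArg Subtype.val hφ]
    exact IsClosedImmersion.spec_of_surjective _ fun r => ⟨algebraMap k _ r, φ.commutes r⟩
  let x₀ := (picZero D CF).1.base (IsLocalRing.closedPoint k)
  have hlift : ∀ i, x₀ ∈ Set.range (picChart D CF i).base →
      ∃ p, p ≫ picChart D CF i = (picZero D CF).1 := by
    intro i hi
    refine ⟨IsOpenImmersion.lift (picChart D CF i) (picZero D CF).1 ?_,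
      IsOpenImmersion.lift_fac _ _ _⟩
    rintro _ ⟨y, rfl⟩
    rw [Subsingleton.elim y (IsLocalRing.closedPoint k)]
    exact hi
  have hrange : Set.range (picZero D CF).1.base = {x₀} := by
    ext z
    constructor
    · rintro ⟨y, rfl⟩
      exact congrArg (picZero D CF).1.base (Subsingleton.elim y (IsLocalRing.closedPoint k))
    · rintro rfl
      exact ⟨_, rfl⟩
  obtain ⟨i₀, hi₀⟩ := exists_mem_picChart D CF x₀
  obtain ⟨p₀, hp₀⟩ := hlift i₀ hi₀
  haveI : IsPreimmersion (picZero D CF).1 := by
    rw [← hp₀]
    haveI := key i₀ p₀ hp₀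
    infer_instance
  refine IsClosedImmersion.of_isPreimmersion _ ?_
  rw [hrange, ← isOpen_compl_iff, isOpen_iff_forall_mem_open]
  intro y hy
  obtain ⟨i, z, rfl⟩ := exists_mem_picChart D CF y
  refine ⟨(picChart D CF i).base '' ((picChart D CF i).base ⁻¹' {x₀})ᶜ, ?_, ?_, z, hy, rfl⟩
  · rintro _ ⟨w, hw, rfl⟩
    exact hw
  · refine (picChart D CF i).isOpenEmbedding.isOpenMap _ ?_
    rw [isOpen_compl_iff]
    by_cases hx : x₀ ∈ Set.range (picChart D CF i).base
    · obtain ⟨p, hp⟩ := hlift i hx
      haveI := key i p hp
      have : (picChart D CF i).base ⁻¹' {x₀} = Set.range p.base := by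
        ext w
        constructor
        · intro hw
          refine ⟨IsLocalRing.closedPoint k, (picChart D CF i).isOpenEmbedding.injective ?_⟩
          rw [Set.mem_preimage, Set.mem_singleton_iff] at hw
          exact ((Scheme.Hom.comp_apply _ _ _).symm.trans (congrArg
            (fun h : Spec (CommRingCat.of k) ⟶ picScheme D CF => h.base (IsLocalRing.closedPoint k))
            hp)).trans hw.symm
        · rintro ⟨v, rfl⟩
          show (picChart D CF i).base (p.base v) = x₀
          rw [Subsingleton.elim v (IsLocalRing.closedPoint k)]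
          exact (Scheme.Hom.comp_apply _ _ _).symm.trans (congrArg
            (fun h : Spec (CommRingCat.of k) ⟶ picScheme D CF => h.base (IsLocalRing.closedPoint k))
            hp)
      rw [this]
      exact p.isClosedEmbedding.isClosed_range
    · convert isClosed_empty
      ext w
      simp only [Set.mem_preimage, Set.mem_singleton_iff, Set.mem_empty_iff_false, iff_false]
      exact fun hw => hx ⟨w, hw⟩

instance isSeparated_picBase : IsSeparated (picBase D CF) := by
  obtain ⟨sub, hsub⟩ := exists_sub D CF
  refine ⟨?_⟩
  have hsubeq : ∀ (R : Type u) [CommRing R] [Algebra k R]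
      (g : SchemeHomOver (specStr k R) (picSqBase D CF)),
      postComp sub g = zeroPt D CF R ↔ postComp (sqFst D CF) g = postComp (sqSnd D CF) g := by
    intro R _ _ g
    have hz := IsTrivial.isTensor_left (ptBundle D CF (postComp (sqSnd D CF) g))
      (isTrivial_zeroPt D CF (R := R))
    constructor
    · intro h
      apply ptBundle_ext
      have h1 := hsub R g
      rw [h] at h1
      exact Bundle.isTensor_unique (Bundle.iso_refl _) (Bundle.iso_refl _) h1 hz
    · intro h
      apply ptBundle_ext
      have h1 := hsub R g
      rw [h] at h1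
      exact tensor_cancel h1 hz (Bundle.iso_refl _)
  let Q := pullback sub.1 (picZero D CF).1
  haveI : IsClosedImmersion (pullback.fst sub.1 (picZero D CF).1) :=
    haveI := isClosedImmersion_picZero D CF
    inferInstance
  have hd : pullback.diagonal (picBase D CF) ≫ sub.1 = picBase D CF ≫ (picZero D CF).1 := by
    refine hom_ext_affine fun R _ ℓ => ?_
    obtain ⟨hA, hg⟩ := exists_algebra_specStr (ℓ ≫ picBase D CF)
    have := (hsubeq R ⟨ℓ ≫ pullback.diagonal _, by simp [picSqBase, hg]⟩).2
      (Subtype.ext (by simp [postComp, sqFst, sqSnd]))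
    have := congrArg Subtype.val this
    simp only [postComp, zeroPt, Category.assoc] at this
    rw [this, hg, Category.assoc]
  let l : picScheme D CF ⟶ Q := pullback.lift (pullback.diagonal _) (picBase D CF) hd
  have hl : l ≫ pullback.fst _ _ = pullback.diagonal (picBase D CF) := pullback.lift_fst _ _ _
  have hinv : IsIso l := by
    refine ⟨pullback.fst sub.1 (picZero D CF).1 ≫ pullback.fst _ _, ?_, ?_⟩
    · rw [← Category.assoc, hl, pullback.diagonal_fst]
    · have heq : pullback.fst sub.1 (picZero D CF).1 ≫ pullback.fst _ _ =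
          pullback.fst sub.1 (picZero D CF).1 ≫ pullback.snd (picBase D CF) (picBase D CF) := by
        refine hom_ext_affine fun R _ ℓ => ?_
        obtain ⟨hA, hg⟩ := exists_algebra_specStr ((ℓ ≫ pullback.fst _ _) ≫ picSqBase D CF)
        let g : SchemeHomOver (specStr k R) (picSqBase D CF) :=
          ⟨ℓ ≫ pullback.fst _ _, hg.symm⟩
        have hz : postComp sub g = zeroPt D CF R := by
          apply Subtype.ext
          show (ℓ ≫ pullback.fst _ _) ≫ sub.1 = specStr k R ≫ (picZero D CF).1
          have hs : ℓ ≫ pullback.snd sub.1 (picZero D CF).1 = specStr k R := by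
            rw [hg, Category.assoc]
            refine congrArg (ℓ ≫ ·) ?_
            show _ = pullback.fst sub.1 (picZero D CF).1 ≫ picSqBase D CF
            conv_rhs => arg 2; rw [show picSqBase D CF = sub.1 ≫ picBase D CF from sub.2.symm]
            rw [pullback.condition_assoc, (picZero D CF).2, Category.comp_id]
          rw [Category.assoc, pullback.condition, ← Category.assoc, hs]
        have := congrArg Subtype.val ((hsubeq R g).1 hz)
        simpa [postComp, sqFst, sqSnd, g] using this
      apply pullback.hom_ext
      · rw [Category.assoc, hl, Category.id_comp]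
        apply pullback.hom_ext
        · rw [Category.assoc, pullback.diagonal_fst, Category.comp_id]
        · rw [Category.assoc, pullback.diagonal_snd, Category.comp_id, heq]
      · rw [Category.assoc, pullback.lift_snd, Category.id_comp, Category.assoc]
        refine (?_ : pullback.fst sub.1 (picZero D CF).1 ≫ picSqBase D CF = _)
        refine (congrArg (pullback.fst sub.1 (picZero D CF).1 ≫ ·) sub.2.symm).trans ?_
        show pullback.fst sub.1 (picZero D CF).1 ≫ sub.1 ≫ picBase D CF = _
        rw [pullback.condition_assoc, (picZero D CF).2, Category.comp_id]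
  rw [← hl]
  infer_instance

end FLTAgent.JacRep
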