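import Fermat.Agent.JacRep.Curve

/-!
# Morphisms over a field through affine points

* `exists_algebra_specStr`, `exists_specOver`: affine schemes over `k` and their morphisms come
  from `k`-algebras and algebra maps.
* `hom_ext_affine`, `hom_ext_points`: morphisms are determined on affine points.
* `exists_hom_of_points`: a natural family of maps on affine points comes from a morphism, glued
  over an affine open cover of the source.
-/

set_option autoImplicit false
set_option linter.style.haveILetI false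

noncomputable section

open CategoryTheory CategoryTheory.Limits AlgebraicGeometry AlgebraicGeometry.RelPicard
  NeronModelInfra

universe u

namespace FLTAgent.JacRep

variable {k : Type u} [Field k] {X Y : Scheme.{u}} {x : X ⟶ Spec (CommRingCat.of k)}
  {y : Y ⟶ Spec (CommRingCat.of k)}

/-- An affine scheme over `k` is the spectrum of a `k`-algebra. -/
theorem exists_algebra_specStr {R : Type u} [CommRing R]
    (g : Spec (CommRingCat.of R) ⟶ Spec (CommRingCat.of k)) :
    ∃ _ : Algebra k R, specStr k R = g := by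
  refine ⟨(Spec.preimage g).hom.toAlgebra, ?_⟩
  show Spec.map (CommRingCat.ofHom (Spec.preimage g).hom) = g
  rw [CommRingCat.ofHom_hom, Spec.map_preimage]

/-- A morphism between affine schemes over `k` is `specOver` of an algebra map. -/
theorem exists_specOver {R S : Type u} [CommRing R] [CommRing S] [Algebra k R] [Algebra k S]
    (g : SchemeHomOver (specStr k S) (specStr k R)) : ∃ φ : R →ₐ[k] S, specOver φ = g := by
  have hg : CommRingCat.ofHom (algebraMap k R) ≫ Spec.preimage g.1 =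
      CommRingCat.ofHom (algebraMap k S) := by
    apply Spec.map_injective
    rw [Spec.map_comp, Spec.map_preimage]
    exact g.2
  refine ⟨⟨(Spec.preimage g.1).hom, fun r => ?_⟩, ?_⟩
  · exact congrArg (fun h => h.hom r) hg
  · apply Subtype.ext
    show Spec.map (CommRingCat.ofHom (Spec.preimage g.1).hom) = g.1
    rw [CommRingCat.ofHom_hom, Spec.map_preimage]

/-- Morphisms out of a scheme are determined on affine schemes mapping to it. -/
theorem hom_ext_affine {P Q : Scheme.{u}} {a b : P ⟶ Q}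
    (h : ∀ (R : Type u) [CommRing R] (ℓ : Spec (CommRingCat.of R) ⟶ P), ℓ ≫ a = ℓ ≫ b) : a = b := by
  obtain ⟨𝒱⟩ : Nonempty P.AffineOpenCover := ⟨P.affineOpenCover⟩
  exact Scheme.Cover.hom_ext 𝒱.openCover _ _ fun i => h (𝒱.X i) (𝒱.f i)

/-- Two morphisms over `k` agreeing on affine points are equal. -/
theorem hom_ext_points (f f' : SchemeHomOver x y)
    (h : ∀ (R : Type u) [CommRing R] [Algebra k R] (g : SchemeHomOver (specStr k R) x),
      postComp f g = postComp f' g) : f = f' := by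
  apply Subtype.ext
  apply hom_ext_affine
  intro R _ ℓ
  obtain ⟨hA, hg⟩ := exists_algebra_specStr (ℓ ≫ x)
  exact congrArg Subtype.val (h R ⟨ℓ, hg.symm⟩)

/-- Natural maps on affine points come from a morphism. -/
theorem exists_hom_of_points
    (F : ∀ (R : Type u) [CommRing R] [Algebra k R],
      SchemeHomOver (specStr k R) x → SchemeHomOver (specStr k R) y)
    (hF : ∀ (R S : Type u) [CommRing R] [CommRing S] [Algebra k R] [Algebra k S] (φ : R →ₐ[k] S)
      (g : SchemeHomOver (specStr k R) x),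
      F S (postComp g (specOver φ)) = postComp (F R g) (specOver φ)) :
    ∃ f : SchemeHomOver x y, ∀ (R : Type u) [CommRing R] [Algebra k R]
      (g : SchemeHomOver (specStr k R) x), F R g = postComp f g := by
  obtain ⟨𝒰⟩ : Nonempty X.AffineOpenCover := ⟨X.affineOpenCover⟩
  have halg0 : ∀ i, ∃ _ : Algebra k (𝒰.X i), specStr k (𝒰.X i) = 𝒰.f i ≫ x := fun i =>
    exists_algebra_specStr (R := (𝒰.X i : Type u)) (𝒰.f i ≫ x)
  choose alg halg using halg0
  let m : ∀ i, Spec (𝒰.X i) ⟶ Y := fun i =>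
    (@F (𝒰.X i) _ (alg i) ⟨𝒰.f i, (halg i).symm⟩).1
  have key : ∀ (R : Type u) [CommRing R] [Algebra k R] (i : 𝒰.I₀)
      (g : Spec (CommRingCat.of R) ⟶ Spec (𝒰.X i)) (h : (g ≫ 𝒰.f i) ≫ x = specStr k R),
      g ≫ m i = (F R ⟨g ≫ 𝒰.f i, h⟩).1 := by
    intro R _ _ i g h
    letI := alg i
    obtain ⟨φ, hφ⟩ := exists_specOver (R := (𝒰.X i : Type u)) (S := R)
      ⟨g, by rw [halg i, ← h, Category.assoc]⟩
    have := congrArg Subtype.val (hF _ _ φ ⟨𝒰.f i, (halg i).symm⟩)
    rw [hφ] at this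
    exact this.symm
  have hglue : ∀ i j, pullback.fst (𝒰.f i) (𝒰.f j) ≫ m i =
      pullback.snd (𝒰.f i) (𝒰.f j) ≫ m j := by
    intro i j
    apply hom_ext_affine
    intro R _ ℓ
    obtain ⟨hA, hg⟩ := exists_algebra_specStr ((ℓ ≫ pullback.fst _ _) ≫ 𝒰.f i ≫ x)
    have heq : (ℓ ≫ pullback.snd _ _) ≫ 𝒰.f j = (ℓ ≫ pullback.fst (𝒰.f i) (𝒰.f j)) ≫ 𝒰.f i := by
      rw [Category.assoc, Category.assoc, pullback.condition]
    have h1 : ((ℓ ≫ pullback.fst _ _) ≫ 𝒰.f i) ≫ x = specStr k R :=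
      (Category.assoc _ _ _).trans hg.symm
    have h2 : ((ℓ ≫ pullback.snd _ _) ≫ 𝒰.f j) ≫ x = specStr k R := by rw [heq, h1]
    rw [← Category.assoc, ← Category.assoc, key _ i _ h1, key _ j _ h2]
    simp only [heq]
  refine ⟨⟨Scheme.Cover.glueMorphisms 𝒰.openCover m hglue, ?_⟩, ?_⟩
  · refine Scheme.Cover.hom_ext 𝒰.openCover _ _ fun i => ?_
    refine (Category.assoc _ _ _).symm.trans ((congrArg (· ≫ y)
      (Scheme.Cover.ι_glueMorphisms 𝒰.openCover m hglue i)).trans ?_)
    exact (@F (𝒰.X i) _ (alg i) ⟨𝒰.f i, (halg i).symm⟩).2.trans (halg i)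
  intro R _ _ g
  apply Subtype.ext
  show (F R g).1 = g.1 ≫ Scheme.Cover.glueMorphisms 𝒰.openCover m hglue
  refine Scheme.Cover.hom_ext (𝒰.openCover.pullback₁ g.1) _ _ fun i => ?_
  show pullback.fst g.1 (𝒰.f i) ≫ (F R g).1 = pullback.fst g.1 (𝒰.f i) ≫ g.1 ≫ _
  apply hom_ext_affine
  intro S _ ℓ
  obtain ⟨hA, hg⟩ := exists_algebra_specStr ((ℓ ≫ pullback.fst g.1 (𝒰.f i)) ≫ specStr k R)
  obtain ⟨φ, hφ⟩ := exists_specOver (R := R) (S := S) ⟨ℓ ≫ pullback.fst g.1 (𝒰.f i), hg.symm⟩
  have hc : (ℓ ≫ pullback.snd _ _) ≫ 𝒰.f i = (ℓ ≫ pullback.fst g.1 (𝒰.f i)) ≫ g.1 := by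
    rw [Category.assoc, Category.assoc, pullback.condition]
  have h1 : ((ℓ ≫ pullback.snd _ _) ≫ 𝒰.f i) ≫ x = specStr k S := by
    rw [hc, hg, Category.assoc _ g.1, g.2]
  have hr : pullback.fst g.1 (𝒰.f i) ≫ g.1 ≫ Scheme.Cover.glueMorphisms 𝒰.openCover m hglue =
      pullback.snd g.1 (𝒰.f i) ≫ m i := by
    rw [← Category.assoc, pullback.condition, Category.assoc]
    exact congrArg (pullback.snd g.1 (𝒰.f i) ≫ ·)
      (Scheme.Cover.ι_glueMorphisms 𝒰.openCover m hglue i)
  rw [hr, ← Category.assoc ℓ, ← Category.assoc ℓ, key S i _ h1]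
  have := congrArg Subtype.val (hF _ _ φ g)
  rw [hφ] at this
  refine this.symm.trans ?_
  apply congrArg Subtype.val
  congr 1
  exact Subtype.ext hc.symm

end FLTAgent.JacRep
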