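import Fermat.Agent.JacRep.Asm.AJ

/-!
# Existence of the Jacobian

`exists_jacobian`: for a smooth proper integral curve with a rational point over an algebraically
closed field, the functor of rigidified line bundles fibrewise algebraically equivalent to zero is
represented by a smooth, proper, geometrically connected scheme. This assembles the cover
(`exists_cover`), the dictionary (`nonempty_dictionary`), the charts (`nonempty_chartFamily`) and
the properties proved in `Asm/Repr`, `Asm/Group`, `Asm/AJ`.
-/

set_option autoImplicit false
set_option linter.style.haveILetI false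

noncomputable section

open CategoryTheory CategoryTheory.Limits AlgebraicGeometry AlgebraicGeometry.RelPicard
  NeronModelInfra GoodReductionJacobian

universe u

namespace FLTAgent.JacRep

/-- **Existence of the Jacobian.** -/
theorem exists_jacobian (k : Type u) [Field k] [IsAlgClosed k] {C : Scheme.{u}}
    (c : C ⟶ Spec (CommRingCat.of k)) [IsProper c] [SmoothOfRelativeDimension 1 c] [IsIntegral C]
    (ε : SchemeHomOver (𝟙 (Spec (CommRingCat.of k))) c) :
    ∃ D : RelativePic0Designation k c,
      Nonempty (RepresentsRelSubPic c ε (algEquivZeroCut c ε) D) ∧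
        Smooth D.toBase ∧ IsProper D.toBase ∧ GeometricallyConnected D.toBase := by
  obtain ⟨Cv, ⟨W⟩⟩ := exists_cover c ε
  obtain ⟨D⟩ := nonempty_dictionary W
  obtain ⟨CF⟩ := nonempty_chartFamily Cv
  refine ⟨⟨picScheme D CF, picBase D CF, (picZero D CF).1, (picZero D CF).2⟩,
    ⟨⟨(picPoint D CF).mod, (picPoint D CF).mem, fun t M hM => existsUnique_classify D CF M hM,
      picZero_spec D CF⟩⟩, smooth_picBase D CF, ?_⟩
  exact isProper_picBase D CF

end FLTAgent.JacRep
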