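import Fermat.Agent.JacRep.Fibre
import Fermat.Agent.JacRep.Asm.Hom

/-!
# Points of the Jacobian functor

* `Point c ε T`: a base map `T → Spec k` with a rigidified module fibrewise algebraically trivial;
  `Pulls f a b`: `b` is the restriction of `a` along `f`, up to isomorphism.
* `Point.bundleAt`: the bundle at an affine point of the base; it is rigidified, of degree zero
  and compatible with pullback.
* `pulls_iff`: restriction is detected on affine points, by descent.
* `exists_point_of_bundle`: rigidified bundles of degree zero over `R` give points over `Spec R`.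
-/

set_option autoImplicit false
set_option linter.style.haveILetI false

noncomputable section

open CategoryTheory CategoryTheory.Limits AlgebraicGeometry AlgebraicGeometry.RelPicard
  NeronModelInfra

universe u

namespace FLTAgent.JacRep

section Modules

variable {k : Type u} [Field k] {C : Scheme.{u}} {c : C ⟶ Spec (CommRingCat.of k)}
  {ε : SchemeHomOver (𝟙 (Spec (CommRingCat.of k))) c}
  {T T' T'' : Scheme.{u}} {t : T ⟶ Spec (CommRingCat.of k)} {t' : T' ⟶ Spec (CommRingCat.of k)}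
  {t'' : T'' ⟶ Spec (CommRingCat.of k)}

theorem nonempty_pullbackAlong_comp (M : RigidifiedLineBundle c ε t) (φ : SchemeHomOver t' t)
    (ψ : SchemeHomOver t'' t') :
    Nonempty (((M.pullbackAlong φ).pullbackAlong ψ).L ≅ (M.pullbackAlong (postComp φ ψ)).L) :=
  ⟨(Scheme.Modules.pullbackComp _ _).app M.L ≪≫
    (Scheme.Modules.pullbackCongr (baseChangeSnd_comp c φ ψ)).app M.L⟩

theorem nonempty_pullbackAlong_id (M : RigidifiedLineBundle c ε t) :
    Nonempty ((M.pullbackAlong ⟨𝟙 T, Category.id_comp t⟩).L ≅ M.L) :=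
  ⟨(Scheme.Modules.pullbackCongr (baseChangeSnd_id c t)).app M.L ≪≫
    (Scheme.Modules.pullbackId (pullback c t)).app M.L⟩

/-- Fibrewise algebraic triviality can be checked after a base change hitting every geometric
point. -/
theorem fibrewise_of_lift {M : RigidifiedLineBundle c ε t}
    (h : ∀ (K : Type u) [Field K] [IsAlgClosed K] (s : Spec (CommRingCat.of K) ⟶ T),
      ∃ (U : Scheme.{u}) (tU : U ⟶ Spec (CommRingCat.of k)) (ψ : SchemeHomOver tU t)
        (s' : Spec (CommRingCat.of K) ⟶ U),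
        s' ≫ ψ.1 = s ∧ FibrewiseAlgEquivZero (M.pullbackAlong ψ)) :
    FibrewiseAlgEquivZero M := by
  intro K _ _ s
  obtain ⟨U, tU, ψ, s', hs, hU⟩ := h K s
  subst hs
  have hc : (pullback.fst (pullback.snd c t) (s' ≫ ψ.1) ≫ pullback.fst c t) ≫ c =
      (pullback.snd (pullback.snd c t) (s' ≫ ψ.1) ≫ s') ≫ tU := by
    simp only [Category.assoc]
    rw [pullback.condition (f := c), ← Category.assoc, pullback.condition, Category.assoc,
      Category.assoc, ψ.2]
  let e : pullback (pullback.snd c t) (s' ≫ ψ.1) ⟶ pullback (pullback.snd c tU) s' :=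
    pullback.lift (pullback.lift _ _ hc) (pullback.snd _ _) (pullback.lift_snd _ _ _)
  have he : e ≫ fibreAt c tU s' = fibreAt c t (s' ≫ ψ.1) := pullback.lift_snd _ _ _
  have hfst : e ≫ pullback.fst (pullback.snd c tU) s' ≫ baseChangeSnd c ψ =
      pullback.fst (pullback.snd c t) (s' ≫ ψ.1) := by
    rw [← Category.assoc, pullback.lift_fst]
    apply pullback.hom_ext
    · simp only [baseChangeSnd, pullback.map, Category.assoc, pullback.lift_fst,
        Category.comp_id]
    · simp only [baseChangeSnd, pullback.map, Category.assoc, pullback.lift_snd,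
        pullback.lift_snd_assoc, pullback.condition]
  refine IsAlgEquivZero.of_iso ?_ ((hU K s').pullback e he)
  exact (Scheme.Modules.pullbackComp _ _).app _ ≪≫
    (Scheme.Modules.pullbackComp _ _).app M.L ≪≫
    (Scheme.Modules.pullbackCongr ((Category.assoc _ _ _).trans hfst)).app M.L

variable (c ε) in
/-- A rigidified module of degree zero over some base. -/
structure Point (T : Scheme.{u}) : Type (u + 1) where
  base : T ⟶ Spec (CommRingCat.of k)
  mod : RigidifiedLineBundle c ε base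
  mem : FibrewiseAlgEquivZero mod

/-- `b` is the restriction of `a` along `f`. -/
def Pulls (f : T' ⟶ T) (a : Point c ε T) (b : Point c ε T') : Prop :=
  ∃ h : f ≫ a.base = b.base, Nonempty ((a.mod.pullbackAlong ⟨f, h⟩).L ≅ b.mod.L)

/-- The restriction. -/
def Point.pull (a : Point c ε T) (f : T' ⟶ T) : Point c ε T' :=
  ⟨f ≫ a.base, a.mod.pullbackAlong ⟨f, rfl⟩, a.mem.pullback _⟩

theorem pulls_pull (a : Point c ε T) (f : T' ⟶ T) : Pulls f a (a.pull f) := ⟨rfl, ⟨Iso.refl _⟩⟩

theorem pulls_refl (a : Point c ε T) : Pulls (𝟙 T) a a :=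
  ⟨Category.id_comp _, nonempty_pullbackAlong_id a.mod⟩

theorem pulls_comp {f : T' ⟶ T} {g : T'' ⟶ T'} {a : Point c ε T} {b : Point c ε T'}
    {d : Point c ε T''} (h : Pulls f a b) (h' : Pulls g b d) : Pulls (g ≫ f) a d := by
  obtain ⟨hf, ⟨e⟩⟩ := h
  obtain ⟨hg, ⟨e'⟩⟩ := h'
  refine ⟨by rw [Category.assoc, hf, hg], ?_⟩
  obtain ⟨e₁⟩ := nonempty_pullbackAlong_comp a.mod ⟨f, hf⟩ ⟨g, hg⟩
  exact ⟨e₁.symm ≪≫ (Scheme.Modules.pullback _).mapIso e ≪≫ e'⟩

theorem pulls_symm {a b : Point c ε T} (h : Pulls (𝟙 T) a b) : Pulls (𝟙 T) b a := by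
  obtain ⟨ta, Ma, ha⟩ := a
  obtain ⟨tb, Mb, hb⟩ := b
  obtain ⟨h, ⟨e⟩⟩ := h
  have h' : ta = tb := (Category.id_comp ta).symm.trans h
  subst h'
  obtain ⟨e₁⟩ := nonempty_pullbackAlong_id Ma
  obtain ⟨e₂⟩ := nonempty_pullbackAlong_id Mb
  exact ⟨Category.id_comp _, ⟨e₂ ≪≫ e.symm ≪≫ e₁⟩⟩

theorem pulls_unique {f : T' ⟶ T} {a : Point c ε T} {b b' : Point c ε T'}
    (h : Pulls f a b) (h' : Pulls f a b') : Pulls (𝟙 T') b b' := by
  obtain ⟨hf, ⟨e⟩⟩ := h
  obtain ⟨hf', ⟨e'⟩⟩ := h'
  obtain ⟨tb, Mb, hb⟩ := b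
  obtain ⟨tb', Mb', hb'⟩ := b'
  have h' : tb = tb' := hf.symm.trans hf'
  subst h'
  obtain ⟨e₁⟩ := nonempty_pullbackAlong_id Mb
  exact ⟨Category.id_comp _, ⟨e₁ ≪≫ e.symm ≪≫ e'⟩⟩

theorem pulls_congr {f : T' ⟶ T} {a a' : Point c ε T} {b b' : Point c ε T'}
    (ha : Pulls (𝟙 T) a' a) (hb : Pulls (𝟙 T') b b') (h : Pulls f a b) : Pulls f a' b' := by
  simpa using pulls_comp (pulls_comp ha h) hb

end Modules

variable {k : Type u} [Field k] [IsAlgClosed k] {Cv : Cover k} {C : Scheme.{u}}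
  {c : C ⟶ Spec (CommRingCat.of k)} [IsProper c]
  {ε : SchemeHomOver (𝟙 (Spec (CommRingCat.of k))) c} {W : Realization Cv c ε} (D : Dictionary W)
  {T T' : Scheme.{u}}

/-- The bundle of a point at an affine point of its base. -/
def Point.bundleAt (a : Point c ε T) (R : Type u) [CommRing R] [Algebra k R]
    (g : SchemeHomOver (specStr k R) a.base) : Bundle Cv R :=
  D.toBundle R (a.mod.pullbackAlong g)

omit [IsAlgClosed k] [IsProper c] in
theorem Point.bundleAt_rigidified (a : Point c ε T) (R : Type u) [CommRing R] [Algebra k R]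
    (g : SchemeHomOver (specStr k R) a.base) : (a.bundleAt D R g).IsRigidified :=
  D.isRigidified R _

theorem Point.bundleAt_degreeZero (a : Point c ε T) (R : Type u) [CommRing R] [Algebra k R]
    (g : SchemeHomOver (specStr k R) a.base) : (a.bundleAt D R g).DegreeZero :=
  (fibrewise_iff_degreeZero W D _).1 (a.mem.pullback g)

omit [IsAlgClosed k] [IsProper c] in
theorem Point.bundleAt_pullback (a : Point c ε T) {R S : Type u} [CommRing R] [CommRing S]
    [Algebra k R] [Algebra k S] (φ : R →ₐ[k] S) (g : SchemeHomOver (specStr k R) a.base) :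
    Bundle.IsPullback φ (a.bundleAt D R g) (a.bundleAt D S (postComp g (specOver φ))) :=
  Bundle.isPullback_of_iso (Bundle.iso_refl _)
    ((D.iso_iff S _ _).2 (nonempty_pullbackAlong_comp _ _ _))
    (D.isPullback R S φ (a.mod.pullbackAlong g))

omit [IsAlgClosed k] [IsProper c] in
theorem Point.bundleAt_of_pulls {f : T' ⟶ T} {a : Point c ε T} {b : Point c ε T'}
    (h : Pulls f a b) (R : Type u) [CommRing R] [Algebra k R]
    (g : SchemeHomOver (specStr k R) b.base) (g' : SchemeHomOver (specStr k R) a.base)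
    (hg : g.1 ≫ f = g'.1) : (b.bundleAt D R g).Iso (a.bundleAt D R g') := by
  obtain ⟨hf, ⟨e⟩⟩ := h
  obtain ⟨e₁⟩ := nonempty_pullbackAlong_comp a.mod ⟨f, hf⟩ g
  have hp : postComp (⟨f, hf⟩ : SchemeHomOver b.base a.base) g = g' := Subtype.ext hg
  rw [hp] at e₁
  exact (D.iso_iff R _ _).2 ⟨((Scheme.Modules.pullback _).mapIso e).symm ≪≫ e₁⟩

omit [IsAlgClosed k] [IsProper c] in
/-- Restriction is detected on affine points. -/
theorem pulls_iff {f : T' ⟶ T} {a : Point c ε T} {b : Point c ε T'} :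
    Pulls f a b ↔ f ≫ a.base = b.base ∧ ∀ (R : Type u) [CommRing R] [Algebra k R]
      (g : SchemeHomOver (specStr k R) b.base) (g' : SchemeHomOver (specStr k R) a.base),
      g.1 ≫ f = g'.1 → (b.bundleAt D R g).Iso (a.bundleAt D R g') := by
  refine ⟨fun h => ⟨h.1, fun R _ _ g g' hg => a.bundleAt_of_pulls D h R g g' hg⟩, ?_⟩
  rintro ⟨hf, h⟩
  refine ⟨hf, ?_⟩
  obtain ⟨𝒰⟩ : Nonempty T'.AffineOpenCover := ⟨T'.affineOpenCover⟩
  refine classes_ext W _ _ (fun i => Spec (𝒰.X i)) 𝒰.f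
    (fun x => 𝒰.openCover.exists_eq x |>.imp fun i hi => hi) fun i => ?_
  obtain ⟨hA, hg⟩ := exists_algebra_specStr (𝒰.f i ≫ b.base)
  have key : ∀ (U : Scheme.{u}) (j : U ⟶ T') (tU : U ⟶ Spec (CommRingCat.of k))
      (hj : j ≫ b.base = tU),
      Nonempty (((a.mod.pullbackAlong ⟨f, hf⟩).pullbackAlong
          (⟨j, hj⟩ : SchemeHomOver tU b.base)).L ≅
        (b.mod.pullbackAlong (⟨j, hj⟩ : SchemeHomOver tU b.base)).L) →
      Nonempty (((a.mod.pullbackAlong ⟨f, hf⟩).pullbackAlong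
          (⟨j, rfl⟩ : SchemeHomOver (j ≫ b.base) b.base)).L ≅
        (b.mod.pullbackAlong (⟨j, rfl⟩ : SchemeHomOver (j ≫ b.base) b.base)).L) := by
    intro U j tU hj hh
    subst hj
    exact hh
  refine key _ _ (specStr k (𝒰.X i)) hg.symm ?_
  obtain ⟨e₁⟩ := nonempty_pullbackAlong_comp a.mod ⟨f, hf⟩
    (⟨𝒰.f i, hg.symm⟩ : SchemeHomOver (specStr k (𝒰.X i)) b.base)
  obtain ⟨e₂⟩ := (D.iso_iff _ _ _).1 (h (𝒰.X i) ⟨𝒰.f i, hg.symm⟩
    ⟨𝒰.f i ≫ f, by rw [Category.assoc, hf]; exact hg.symm⟩ rfl)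
  exact ⟨e₁ ≪≫ e₂.symm⟩

omit [IsAlgClosed k] in
theorem degreeZero_of_iso {R : Type u} [CommRing R] [Algebra k R] {E E' : Bundle Cv R}
    (h : E'.Iso E) (hd : E.DegreeZero) : E'.DegreeZero :=
  fun K _ _ φ X U hX hU =>
    hd K φ X U (Bundle.isPullback_of_iso h (Bundle.iso_refl X) hX) hU

/-- A rigidified bundle of degree zero over `R` gives a point over its spectrum. -/
theorem exists_point_of_bundle (R : Type u) [CommRing R] [Algebra k R] (E : Bundle Cv R)
    (hE : E.IsRigidified) (hd : E.DegreeZero) :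
    ∃ (a : Point c ε (Spec (CommRingCat.of R))) (h : specStr k R = a.base),
      (a.bundleAt D R ⟨𝟙 _, (Category.id_comp _).trans h.symm⟩).Iso E := by
  obtain ⟨M, hM⟩ := D.surjective R E hE
  refine ⟨⟨specStr k R, M, (fibrewise_iff_degreeZero W D M).2 (degreeZero_of_iso hM hd)⟩, rfl, ?_⟩
  exact Bundle.iso_trans ((D.iso_iff R _ _).2 (nonempty_pullbackAlong_id M)) hM

end FLTAgent.JacRep
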