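import Fermat.Agent.JacRep.Asm.Chart
import Mathlib.AlgebraicGeometry.Morphisms.Smooth
import Mathlib.CategoryTheory.Limits.Preserves.FunctorCategory

/-!
# The Jacobian as glued charts

The chart maps are jointly surjective (`exists_mem_goodOpen`: at every geometric point some chart
condition holds), so the sheaf of classes is represented by the glued scheme `picScheme`, with
universal point `picPoint` and structure map `picBase`.
* `existsUnique_classify`: morphisms to the Jacobian over `k` are classes of rigidified modules
  fibrewise algebraically trivial.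
* `picChart`, `picCover`, `smooth_picBase`: the charts cover it, so it is smooth over `k`.
-/

set_option autoImplicit false
set_option linter.style.haveILetI false

noncomputable section

open CategoryTheory CategoryTheory.Limits AlgebraicGeometry AlgebraicGeometry.RelPicard
  NeronModelInfra Opposite

universe u

namespace FLTAgent.JacRep

variable {k : Type u} [Field k] [IsAlgClosed k] {Cv : Cover k} {C : Scheme.{u}}
  {c : C ⟶ Spec (CommRingCat.of k)} [IsProper c]
  {ε : SchemeHomOver (𝟙 (Spec (CommRingCat.of k))) c} {W : Realization Cv c ε} (D : Dictionary W)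
  (CF : ChartFamily Cv) {T : Scheme.{u}}

/-- The loci of the charts cover. -/
theorem exists_mem_goodOpen (a : Point c ε T) (x : T) : ∃ i, x ∈ goodOpen D CF i a := by
  let K := AlgebraicClosure (T.residueField x)
  let s : Spec (CommRingCat.of K) ⟶ T :=
    Spec.map (CommRingCat.ofHom (algebraMap (T.residueField x) K)) ≫ T.fromSpecResidueField x
  obtain ⟨hA, hg⟩ := exists_algebra_specStr (s ≫ a.base)
  let g : SchemeHomOver (specStr k K) a.base := ⟨s, hg.symm⟩
  obtain ⟨i, hi⟩ := CF.covers K _ (a.bundleAt_rigidified D K g) (a.bundleAt_degreeZero D K g)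
  refine ⟨i, (good_iff_range_subset D CF i a K g).1 hi ⟨IsLocalRing.closedPoint K, ?_⟩⟩
  exact (Scheme.Hom.comp_apply _ _ _).trans (Scheme.fromSpecResidueField_apply _ _)

instance isLocallySurjective_chartHom :
    Presheaf.IsLocallySurjective Scheme.zariskiTopology (Sigma.desc (chartHom D CF)) where
  imageSieve_mem {T} s := by
    obtain ⟨a, rfl⟩ := cls_surjective W s
    have hcov : ⨆ i, goodOpen D CF i a = ⊤ := by
      rw [eq_top_iff]
      rintro x -
      exact TopologicalSpace.Opens.mem_iSup.2 (exists_mem_goodOpen D CF a x)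
    refine GrothendieckTopology.superset_covering _ ?_
      (Scheme.openCoverOfIsOpenCover T _ (TopologicalSpace.IsOpenCover.mk hcov)).mem_grothendieckTopology
    rintro V f ⟨U, v, w, ⟨i'⟩, rfl⟩
    obtain ⟨i, rfl⟩ : ∃ i : CF.Index, i = i' := ⟨i', rfl⟩
    change V ⟶ (goodOpen D CF i a).toScheme at v
    obtain ⟨q, hq⟩ := exists_classify D CF i a
    refine ⟨(Sigma.ι (fun i => yoneda.obj (Spec (CommRingCat.of (CF.ring i)))) i).app (op V)
      (v ≫ q), ?_⟩
    refine ((ConcreteCategory.comp_apply _ _ _).symm.trans (congrArg
      (fun η : yoneda.obj (Spec (CommRingCat.of (CF.ring i))) ⟶ (picSheaf W).1 =>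
        η.app (op V) (v ≫ q)) (Sigma.ι_desc (chartHom D CF) i))).trans ?_
    show (chartHom D CF i).app (op V) (v ≫ q) = picMap W (v ≫ (goodOpen D CF i a).ι) (cls W a)
    rw [chartHom_apply, ← picMap_picMap, ← picMap_picMap W (goodOpen D CF i a).ι v,
      picMap_cls W (goodOpen D CF i a).ι, (picMap_cls_eq_iff W q _ _).2 hq]

/-- The Jacobian. -/
def picScheme : Scheme.{u} :=
  (Scheme.LocalRepresentability.glueData (chartHom_isOpenImmersion D CF)).glued

/-- Its functor. -/
def picRepr : (picSheaf W).1.RepresentableBy (picScheme D CF) :=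
  Scheme.LocalRepresentability.representableBy (chartHom_isOpenImmersion D CF)

/-- The universal point. -/
def picPoint : Point c ε (picScheme D CF) :=
  repr W ((picRepr D CF).homEquiv (𝟙 _))

theorem homEquiv_eq (f : T ⟶ picScheme D CF) :
    (picRepr D CF).homEquiv f = picMap W f (cls W (picPoint D CF)) := by
  exact ((picRepr D CF).homEquiv_eq f).trans
    (congrArg (picMap W f) (cls_repr W ((picRepr D CF).homEquiv (𝟙 _))).symm)

/-- Every point is uniquely a restriction of the universal one. -/
theorem existsUnique_pulls (a : Point c ε T) : ∃! f, Pulls f (picPoint D CF) a := by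
  refine ⟨(picRepr D CF).homEquiv.symm (cls W a), ?_, fun f hf => ?_⟩
  · exact (picMap_cls_eq_iff W _ _ _).1
      ((homEquiv_eq D CF _).symm.trans ((picRepr D CF).homEquiv.apply_symm_apply _))
  · apply (picRepr D CF).homEquiv.injective
    exact ((homEquiv_eq D CF f).trans ((picMap_cls_eq_iff W f _ _).2 hf)).trans
      ((picRepr D CF).homEquiv.apply_symm_apply _).symm

/-- The structure map. -/
def picBase : picScheme D CF ⟶ Spec (CommRingCat.of k) := (picPoint D CF).base

/-- Morphisms to the Jacobian are points. -/
theorem existsUnique_classify {t : T ⟶ Spec (CommRingCat.of k)}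
    (M : RigidifiedLineBundle c ε t) (hM : FibrewiseAlgEquivZero M) :
    ∃! g : SchemeHomOver t (picBase D CF),
      Nonempty (((picPoint D CF).mod.pullbackAlong g).L ≅ M.L) := by
  obtain ⟨f, hf, hu⟩ := existsUnique_pulls D CF ⟨t, M, hM⟩
  obtain ⟨h, he⟩ := hf
  exact ⟨⟨f, h⟩, he, fun g hg => Subtype.ext (hu g.1 ⟨g.2, hg⟩)⟩

/-- The chart maps. -/
def picChart (i : CF.Index) : Spec (CommRingCat.of (CF.ring i)) ⟶ picScheme D CF :=
  Scheme.LocalRepresentability.toGlued (chartHom_isOpenImmersion D CF) i

instance (i : CF.Index) : IsOpenImmersion (picChart D CF i) :=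
  inferInstanceAs (IsOpenImmersion
    (Scheme.LocalRepresentability.toGlued (chartHom_isOpenImmersion D CF) i))

theorem pulls_picChart (i : CF.Index) :
    Pulls (picChart D CF i) (picPoint D CF) (univPoint D CF i) := by
  rw [← picMap_cls_eq_iff W, ← homEquiv_eq]
  exact (Scheme.LocalRepresentability.yonedaGluedToSheaf_app_toGlued
    (chartHom_isOpenImmersion D CF) (i := i)).trans (Equiv.apply_symm_apply _ _)

theorem picChart_base (i : CF.Index) :
    picChart D CF i ≫ picBase D CF = specStr k (CF.ring i) :=
  (pulls_picChart D CF i).1.trans (univPoint_base D CF i).symm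

/-- The charts cover. -/
theorem exists_mem_picChart (x : picScheme D CF) :
    ∃ i, x ∈ Set.range (picChart D CF i).base := by
  obtain ⟨i, y, hy⟩ :=
    (Scheme.LocalRepresentability.glueData (chartHom_isOpenImmersion D CF)).ι_jointly_surjective x
  exact ⟨i, y, hy⟩

/-- The charts as a cover. -/
def picCover : (picScheme D CF).OpenCover :=
  (Scheme.LocalRepresentability.glueData (chartHom_isOpenImmersion D CF)).openCover

instance smooth_picBase : Smooth (picBase D CF) := by
  haveI : IsZariskiLocalAtSource @Smooth.{u} :=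
    HasRingHomProperty.instIsZariskiLocalAtSource (P := @Smooth.{u})
  rw [IsZariskiLocalAtSource.iff_of_openCover (P := @Smooth.{u}) (picCover D CF)]
  intro i'
  obtain ⟨i, rfl⟩ : ∃ i : CF.Index, i = i' := ⟨i', rfl⟩
  show Smooth (picChart D CF i ≫ picBase D CF)
  rw [picChart_base, HasRingHomProperty.Spec_iff (P := @Smooth.{u}), CommRingCat.hom_ofHom,
    RingHom.smooth_algebraMap]
  exact ⟨CF.formallySmooth i, CF.finitePresentation i⟩

end FLTAgent.JacRep
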