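import Fermat.Agent.JacRep.Asm.Points
import Mathlib.AlgebraicGeometry.Sites.Representability

/-!
# The sheaf of rigidified classes of degree zero

`picFunctor` sends a scheme to the small type `PicObj` of points (base map and rigidified module)
up to isomorphism. Classes are determined on open covers (`pic_ext`, from `classes_ext`) and glue
(`exists_amalgam`, from `exists_glue`; fibrewise triviality is checked on the cover), so it is a
Zariski sheaf: `isSheaf_picFunctor`, `picSheaf`.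
-/

set_option autoImplicit false
set_option linter.style.haveILetI false

noncomputable section

open CategoryTheory CategoryTheory.Limits AlgebraicGeometry AlgebraicGeometry.RelPicard
  NeronModelInfra Opposite

universe u

namespace FLTAgent.JacRep

variable {k : Type u} [Field k] [IsAlgClosed k] {Cv : Cover k} {C : Scheme.{u}}
  {c : C ⟶ Spec (CommRingCat.of k)} [IsProper c]
  {ε : SchemeHomOver (𝟙 (Spec (CommRingCat.of k))) c} (W : Realization Cv c ε)
  {T T' T'' : Scheme.{u}}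

omit [IsAlgClosed k] [IsProper c] in
variable (c ε) in
/-- Points up to isomorphism. -/
def pointSetoid (T : Scheme.{u}) : Setoid (Point c ε T) where
  r := Pulls (𝟙 T)
  iseqv := ⟨pulls_refl, pulls_symm, fun h h' => by simpa using pulls_comp h h'⟩

omit [IsAlgClosed k] [IsProper c] in
theorem small_points (W : Realization Cv c ε) (T : Scheme.{u}) :
    Small.{u} (Quotient (pointSetoid c ε T)) := by
  haveI : ∀ t : T ⟶ Spec (CommRingCat.of k), Small.{u} (RigidifiedLineBundle.Classes c ε t) :=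
    fun t => small_classes W t
  refine small_of_injective (β := Σ t : T ⟶ Spec (CommRingCat.of k),
    RigidifiedLineBundle.Classes c ε t) (f := fun q => ⟨q.out.base, Quotient.mk _ q.out.mod⟩) ?_
  intro q q' h
  rw [← Quotient.out_eq q, ← Quotient.out_eq q']
  apply Quotient.sound
  show Pulls (𝟙 T) q.out q'.out
  have key : ∀ a b : Point c ε T, (⟨a.base, Quotient.mk _ a.mod⟩ : Σ t : T ⟶ Spec (CommRingCat.of k),
      RigidifiedLineBundle.Classes c ε t) = ⟨b.base, Quotient.mk _ b.mod⟩ → Pulls (𝟙 T) a b := ?_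
  · exact key _ _ h
  rintro ⟨ta, Ma, _⟩ ⟨tb, Mb, _⟩ h
  obtain ⟨h₁, h₂⟩ := Sigma.mk.inj_iff.1 h
  subst h₁
  obtain ⟨e⟩ := Quotient.exact (eq_of_heq h₂)
  obtain ⟨e₁⟩ := nonempty_pullbackAlong_id Ma
  exact ⟨Category.id_comp _, ⟨e₁ ≪≫ e⟩⟩

include W in
/-- The values of the sheaf. -/
def PicObj (T : Scheme.{u}) : Type u :=
  haveI := small_points W T
  Shrink.{u} (Quotient (pointSetoid c ε T))

/-- The class of a point. -/
def cls (a : Point c ε T) : PicObj W T :=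
  haveI := small_points W T
  equivShrink _ (Quotient.mk (pointSetoid c ε T) a)

omit [IsAlgClosed k] [IsProper c] in
theorem cls_eq_iff (a b : Point c ε T) : cls W a = cls W b ↔ Pulls (𝟙 T) a b := by
  haveI := small_points W T
  refine ⟨fun h => Quotient.exact ((equivShrink _).injective h), fun h => ?_⟩
  exact congrArg (equivShrink _) (Quotient.sound (s := pointSetoid c ε T) h)

omit [IsAlgClosed k] [IsProper c] in
theorem cls_surjective (ξ : PicObj W T) : ∃ a, cls W a = ξ := by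
  haveI := small_points W T
  refine ⟨((equivShrink _).symm ξ).out, ?_⟩
  rw [cls, Quotient.out_eq]
  exact Equiv.apply_symm_apply _ ξ

/-- A representative. -/
def repr (ξ : PicObj W T) : Point c ε T := (cls_surjective W ξ).choose

omit [IsAlgClosed k] [IsProper c] in
theorem cls_repr (ξ : PicObj W T) : cls W (repr W ξ) = ξ := (cls_surjective W ξ).choose_spec

/-- Restriction of classes. -/
def picMap (f : T' ⟶ T) (ξ : PicObj W T) : PicObj W T' := cls W ((repr W ξ).pull f)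

omit [IsAlgClosed k] [IsProper c] in
theorem picMap_cls_eq_iff (f : T' ⟶ T) (a : Point c ε T) (b : Point c ε T') :
    picMap W f (cls W a) = cls W b ↔ Pulls f a b := by
  have h₀ : Pulls (𝟙 T) a (repr W (cls W a)) := by
    rw [← cls_eq_iff W]; exact (cls_repr W _).symm
  rw [picMap, cls_eq_iff]
  constructor
  · intro h
    exact pulls_congr h₀ h (pulls_pull _ f)
  · intro h
    exact pulls_unique (pulls_pull _ f) (pulls_congr (pulls_symm h₀) (pulls_refl b) h)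

omit [IsAlgClosed k] [IsProper c] in
theorem picMap_cls (f : T' ⟶ T) (a : Point c ε T) :
    picMap W f (cls W a) = cls W (a.pull f) :=
  (picMap_cls_eq_iff W f a _).2 (pulls_pull a f)

/-- The functor. -/
def picFunctor : Scheme.{u}ᵒᵖ ⥤ Type u where
  obj T := PicObj W T.unop
  map f := TypeCat.ofHom (picMap W f.unop)
  map_id T := by
    ext ξ
    obtain ⟨a, rfl⟩ := cls_surjective W ξ
    exact (picMap_cls_eq_iff W _ a a).2 (pulls_refl a)
  map_comp {T T' T''} f g := by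
    ext ξ
    obtain ⟨a, rfl⟩ := cls_surjective W ξ
    show picMap W (g.unop ≫ f.unop) (cls W a) = picMap W g.unop (picMap W f.unop (cls W a))
    rw [picMap_cls W f.unop]
    exact (picMap_cls_eq_iff W _ a _).2 (pulls_comp (pulls_pull a _) (pulls_pull _ g.unop)) |>.trans
      (picMap_cls W g.unop _).symm

omit [IsAlgClosed k] [IsProper c] in
theorem picMap_picMap (f : T' ⟶ T) (g : T'' ⟶ T') (ξ : PicObj W T) :
    picMap W g (picMap W f ξ) = picMap W (g ≫ f) ξ := by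
  obtain ⟨a, rfl⟩ := cls_surjective W ξ
  rw [picMap_cls W f, picMap_cls W g]
  exact ((picMap_cls_eq_iff W _ a _).2 (pulls_comp (pulls_pull a _) (pulls_pull _ g))).symm

omit [IsAlgClosed k] [IsProper c] in
/-- Classes agreeing on a cover are equal. -/
theorem pic_ext (𝒰 : Scheme.OpenCover.{u} T) {ξ η : PicObj W T}
    (h : ∀ i, picMap W (𝒰.f i) ξ = picMap W (𝒰.f i) η) : ξ = η := by
  obtain ⟨a, rfl⟩ := cls_surjective W ξ
  obtain ⟨b, rfl⟩ := cls_surjective W η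
  simp only [picMap_cls W, cls_eq_iff] at h
  obtain ⟨t, N, _⟩ := b
  obtain ⟨ta, Mb, _⟩ := a
  have hbt : ta = t := Scheme.Cover.hom_ext 𝒰 _ _ fun i => by
    simpa [Point.pull] using (h i).1
  subst hbt
  rw [cls_eq_iff]
  obtain ⟨f₀⟩ := nonempty_pullbackAlong_id Mb
  refine ⟨Category.id_comp _, ⟨f₀ ≪≫ (classes_ext W Mb N 𝒰.X 𝒰.f (fun y => 𝒰.exists_eq y)
    fun i => ?_).some⟩⟩
  obtain ⟨h', ⟨g⟩⟩ := h i
  obtain ⟨g₁⟩ := nonempty_pullbackAlong_id (Mb.pullbackAlong (⟨𝒰.f i, rfl⟩ :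
    SchemeHomOver (𝒰.f i ≫ ta) ta))
  exact ⟨g₁.symm ≪≫ g⟩

omit [IsAlgClosed k] [IsProper c] in
/-- Compatible classes on a cover glue. -/
theorem exists_amalgam (𝒰 : Scheme.OpenCover.{u} T) (x : ∀ i, PicObj W (𝒰.X i))
    (hx : ∀ i j (Z : Scheme.{u}) (gi : Z ⟶ 𝒰.X i) (gj : Z ⟶ 𝒰.X j),
      gi ≫ 𝒰.f i = gj ≫ 𝒰.f j → picMap W gi (x i) = picMap W gj (x j)) :
    ∃ ξ, ∀ i, picMap W (𝒰.f i) ξ = x i := by
  choose a ha using fun i => cls_surjective W (x i)
  have hcompat : ∀ i j (Z : Scheme.{u}) (gi : Z ⟶ 𝒰.X i) (gj : Z ⟶ 𝒰.X j),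
      gi ≫ 𝒰.f i = gj ≫ 𝒰.f j → Pulls (𝟙 Z) ((a i).pull gi) ((a j).pull gj) := by
    intro i j Z gi gj h
    rw [← cls_eq_iff W, ← picMap_cls, ← picMap_cls, ha, ha]
    exact hx i j Z gi gj h
  have hbase : ∀ i j, pullback.fst (𝒰.f i) (𝒰.f j) ≫ (a i).base =
      pullback.snd (𝒰.f i) (𝒰.f j) ≫ (a j).base := fun i j => by
    simpa [Point.pull] using (hcompat i j _ _ _ pullback.condition).1
  let t : T ⟶ Spec (CommRingCat.of k) := Scheme.Cover.glueMorphisms 𝒰 (fun i => (a i).base) hbase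
  have ht : ∀ i, 𝒰.f i ≫ t = (a i).base := fun i => Scheme.Cover.ι_glueMorphisms 𝒰 _ hbase i
  let U : 𝒰.I₀ → T.Opens := fun i => (𝒰.f i).opensRange
  have hU : ⨆ i, U i = ⊤ := by
    rw [eq_top_iff]
    rintro y -
    obtain ⟨i, hi⟩ := 𝒰.exists_eq y
    exact TopologicalSpace.Opens.mem_iSup.2 ⟨i, hi⟩
  let e : ∀ i, (U i).toScheme ⟶ 𝒰.X i := fun i => (𝒰.f i).isoOpensRange.inv
  have he : ∀ i, e i ≫ 𝒰.f i = (U i).ι := fun i => (𝒰.f i).isoOpensRange_inv_comp
  have heb : ∀ i, e i ≫ (a i).base = (U i).ι ≫ t := fun i => by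
    rw [← ht, ← Category.assoc, he]
  let M : ∀ i, RigidifiedLineBundle c ε ((U i).ι ≫ t) := fun i =>
    (a i).mod.pullbackAlong ⟨e i, heb i⟩
  obtain ⟨N, hN⟩ := exists_glue W U hU M fun i l => by
    have h := hcompat i l _ (T.homOfLE inf_le_left ≫ e i) (T.homOfLE inf_le_right ≫ e l)
      (by rw [Category.assoc, he, Category.assoc, he, Scheme.homOfLE_ι, Scheme.homOfLE_ι])
    have key : ∀ (v v' : (U i ⊓ U l).toScheme ⟶ T) (s : (U i ⊓ U l).toScheme ⟶ 𝒰.X i)
        (s' : (U i ⊓ U l).toScheme ⟶ 𝒰.X l) (t₁ : (U i ⊓ U l).toScheme ⟶ Spec (CommRingCat.of k))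
        (h₁ : s ≫ (a i).base = t₁) (h₂ : s' ≫ (a l).base = t₁),
        Pulls (𝟙 _) ((a i).pull s) ((a l).pull s') →
          Nonempty (((a i).mod.pullbackAlong (⟨s, h₁⟩ : SchemeHomOver t₁ (a i).base)).L ≅
            ((a l).mod.pullbackAlong (⟨s', h₂⟩ : SchemeHomOver t₁ (a l).base)).L) := by
      intro v v' s s' t₁ h₁ h₂ hp
      subst h₁
      obtain ⟨h', ⟨f⟩⟩ := hp
      obtain ⟨f₁⟩ := nonempty_pullbackAlong_comp (a i).mod (⟨s, rfl⟩ :
        SchemeHomOver (s ≫ (a i).base) (a i).base)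
        (⟨𝟙 _, h'⟩ : SchemeHomOver (s' ≫ (a l).base) (s ≫ (a i).base))
      have key₂ : ∀ (t₂ : (U i ⊓ U l).toScheme ⟶ Spec (CommRingCat.of k))
          (h₃ : s ≫ (a i).base = t₂) (h₄ : s' ≫ (a l).base = t₂),
          Nonempty (((a i).mod.pullbackAlong (⟨s, h₃⟩ : SchemeHomOver t₂ (a i).base)).L ≅
            ((a l).mod.pullbackAlong (⟨s', h₄⟩ : SchemeHomOver t₂ (a l).base)).L) →
          ∀ (t₃ : (U i ⊓ U l).toScheme ⟶ Spec (CommRingCat.of k)) (h₅ : s ≫ (a i).base = t₃)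
            (h₆ : s' ≫ (a l).base = t₃),
            Nonempty (((a i).mod.pullbackAlong (⟨s, h₅⟩ : SchemeHomOver t₃ (a i).base)).L ≅
              ((a l).mod.pullbackAlong (⟨s', h₆⟩ : SchemeHomOver t₃ (a l).base)).L) := by
        intro t₂ h₃ h₄ hh t₃ h₅ h₆
        subst h₃
        subst h₅
        exact hh
      refine key₂ (s' ≫ (a l).base) h₂.symm rfl ⟨?_⟩ _ rfl h₂
      refine (?_ : _ ≅ _) ≪≫ f₁.symm ≪≫ f
      exact (Scheme.Modules.pullbackCongr (congrArg (baseChangeSnd c)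
        (Subtype.ext (Category.id_comp s).symm))).app _
    obtain ⟨f⟩ := key (U i ⊓ U l).ι (U i ⊓ U l).ι _ _ ((U i ⊓ U l).ι ≫ t)
      (by rw [Category.assoc, heb, ← Category.assoc, Scheme.homOfLE_ι])
      (by rw [Category.assoc, heb, ← Category.assoc, Scheme.homOfLE_ι]) h
    obtain ⟨f₁⟩ := nonempty_pullbackAlong_comp (a i).mod ⟨e i, heb i⟩
      (⟨T.homOfLE inf_le_left, by rw [← Category.assoc, Scheme.homOfLE_ι]⟩ :
        SchemeHomOver ((U i ⊓ U l).ι ≫ t) ((U i).ι ≫ t))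
    obtain ⟨f₂⟩ := nonempty_pullbackAlong_comp (a l).mod ⟨e l, heb l⟩
      (⟨T.homOfLE inf_le_right, by rw [← Category.assoc, Scheme.homOfLE_ι]⟩ :
        SchemeHomOver ((U i ⊓ U l).ι ≫ t) ((U l).ι ≫ t))
    exact ⟨f₁ ≪≫ f ≪≫ f₂.symm⟩
  have hNi : ∀ i, Nonempty ((N.pullbackAlong ⟨𝒰.f i, ht i⟩).L ≅ (a i).mod.L) := by
    intro i
    obtain ⟨f⟩ := hN i
    let q : SchemeHomOver (a i).base ((U i).ι ≫ t) := ⟨(𝒰.f i).isoOpensRange.hom, by
      rw [← ht, ← Category.assoc]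
      exact congrArg (· ≫ t) (𝒰.f i).isoOpensRange_hom_ι⟩
    obtain ⟨f₁⟩ := nonempty_pullbackAlong_comp N ⟨(U i).ι, rfl⟩ q
    obtain ⟨f₂⟩ := nonempty_pullbackAlong_comp (a i).mod ⟨e i, heb i⟩ q
    obtain ⟨f₃⟩ := nonempty_pullbackAlong_id (a i).mod
    have h₁ : postComp (⟨(U i).ι, rfl⟩ : SchemeHomOver ((U i).ι ≫ t) t) q = ⟨𝒰.f i, ht i⟩ :=
      Subtype.ext (𝒰.f i).isoOpensRange_hom_ι
    have h₂ : postComp (⟨e i, heb i⟩ : SchemeHomOver ((U i).ι ≫ t) (a i).base) q =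
        ⟨𝟙 _, Category.id_comp _⟩ := Subtype.ext (𝒰.f i).isoOpensRange.hom_inv_id
    rw [h₁] at f₁
    rw [h₂] at f₂
    exact ⟨f₁.symm ≪≫ (Scheme.Modules.pullback _).mapIso f ≪≫ f₂ ≪≫ f₃⟩
  have hmem : FibrewiseAlgEquivZero N := by
    refine fibrewise_of_lift fun K _ _ s => ?_
    obtain ⟨i, z, hz⟩ := 𝒰.exists_eq (s.base (IsLocalRing.closedPoint K))
    refine ⟨𝒰.X i, (a i).base, ⟨𝒰.f i, ht i⟩, IsOpenImmersion.lift (𝒰.f i) s ?_,
      IsOpenImmersion.lift_fac _ _ _, (a i).mem.congr ⟨(hNi i).some.symm⟩⟩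
    rintro _ ⟨y, rfl⟩
    exact ⟨z, hz.trans (congrArg s.base (Subsingleton.elim _ _))⟩
  refine ⟨cls W ⟨t, N, hmem⟩, fun i => ?_⟩
  rw [← ha i]
  exact (picMap_cls_eq_iff W _ _ _).2 ⟨ht i, hNi i⟩

/-- The classes form a sheaf. -/
theorem isSheaf_picFunctor : Presieve.IsSheaf Scheme.zariskiTopology (picFunctor W) := by
  rw [Precoverage.isSheaf_toGrothendieck_iff_of_isStableUnderBaseChange]
  intro T R hR
  obtain ⟨(𝒰 : Scheme.OpenCover T), rfl⟩ := Scheme.exists_cover_of_mem_pretopology hR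
  rw [Presieve.isSheafFor_arrows_iff]
  intro x hx
  let 𝒱 := 𝒰.ulift
  obtain ⟨ξ, hξ⟩ := exists_amalgam W 𝒱 (fun y => x _) fun y z Z gy gz h => hx _ _ Z gy gz h
  refine ⟨ξ, fun i => ?_, fun η hη => pic_ext W 𝒱 fun y => (hη _).trans (hξ y).symm⟩
  refine pic_ext W (𝒱.pullback₁ (𝒰.f i)) fun y => ?_
  refine (picMap_picMap W (𝒰.f i) (pullback.fst (𝒰.f i) (𝒱.f y)) ξ).trans ?_
  rw [pullback.condition (f := 𝒰.f i), ← picMap_picMap]
  exact (congrArg _ (hξ y)).trans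
    (hx _ i _ (pullback.snd (𝒰.f i) (𝒱.f y)) _ pullback.condition.symm)

/-- The sheaf of rigidified classes of degree zero. -/
def picSheaf : Sheaf Scheme.zariskiTopology.{u} (Type u) :=
  ⟨picFunctor W, (isSheaf_iff_isSheaf_of_type _ _).2 (isSheaf_picFunctor W)⟩

end FLTAgent.JacRep
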